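import Mathlib
import Fermat.Agent.Ell.ZDat
import Fermat.Agent.H27.Z3Span2

/-!
# PROGRAM Z: the sign character and the quadratic field
-/

set_option autoImplicit false
set_option linter.unusedSectionVars false

namespace Fermat.Agent.ZF

open IsLocalRing
open WeierstrassCurve WeierstrassCurve.Affine WeierstrassCurve.Affine.Point
open Fermat.Agent.H08 Fermat.Agent.Frob Fermat.Agent.EGal Fermat.Agent.Ell
open Fermat.Agent.Z34 (GDat M2 HH mem_HH gam)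

/-- the discriminant of `W` over `ℚ̄` -/
lemma Delta_Qb (W : WeierstrassCurve ℤ) : ((WQ W)⁄Qb).Δ = (W.Δ : Qb) := by
  rw [← map_WQ, WeierstrassCurve.map_Δ]; simp

section

variable {E : WeierstrassCurve ℚ} [E.IsElliptic]

lemma two_tors (x : VV E 2) : (x : Pts E) + (x : Pts E) = 0 := by
  have := x.2
  rw [Submodule.mem_torsionBy_iff, natCast_zsmul, two_nsmul] at this
  exact this

lemma rho_basis (c : Module.Basis (Fin 2) (ZMod 2) (VV E 2)) (σ : GQ) (j : Fin 2) :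
    rho E 2 σ (c j) = mtx c (rho E 2 σ) 0 j • c 0 + mtx c (rho E 2 σ) 1 j • c 1 := by
  conv_lhs => rw [← c.sum_repr (rho E 2 σ (c j)), Fin.sum_univ_two]
  rw [mtx_apply, mtx_apply]

lemma zmod2 (a : ZMod 2) : a = 0 ∨ a = 1 := by
  revert a; decide

/-- the product of the differences of the `x`-coordinates -/
noncomputable def sd (c : Module.Basis (Fin 2) (ZMod 2) (VV E 2)) : Qb :=
  4 * ((px ((c 0 : VV E 2) : Pts E) - px ((c 1 : VV E 2) : Pts E)) *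
    (px ((c 0 : VV E 2) : Pts E) - px ((c 0 + c 1 : VV E 2) : Pts E)) *
    (px ((c 1 : VV E 2) : Pts E) - px ((c 0 + c 1 : VV E 2) : Pts E)))

lemma basis_ne (c : Module.Basis (Fin 2) (ZMod 2) (VV E 2)) :
    ((c 0 : VV E 2) : Pts E) ≠ 0 ∧ ((c 1 : VV E 2) : Pts E) ≠ 0 ∧
      ((c 0 + c 1 : VV E 2) : Pts E) ≠ 0 ∧ ((c 0 : VV E 2) : Pts E) ≠ (c 1 : VV E 2) ∧
      ((c 0 : VV E 2) : Pts E) ≠ (c 0 + c 1 : VV E 2) ∧
      ((c 1 : VV E 2) : Pts E) ≠ (c 0 + c 1 : VV E 2) := by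
  have hb0 : c 0 ≠ 0 := c.ne_zero 0
  have hb1 : c 1 ≠ 0 := c.ne_zero 1
  have hb01 : c 0 ≠ c 1 := fun h => absurd (c.injective h) (by decide)
  have hne : ∀ {x y : VV E 2}, x ≠ y → (x : Pts E) ≠ (y : Pts E) := fun h h' =>
    h (Subtype.ext h')
  have hadd : ∀ x : VV E 2, x + x = 0 := fun x => Subtype.ext (two_tors x)
  have h3 : c 0 + c 1 ≠ 0 := by
    intro h
    apply hb01
    rw [eq_neg_of_add_eq_zero_left h]
    exact (eq_neg_of_add_eq_zero_left (hadd (c 1))).symm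
  have h4 : c 0 ≠ c 0 + c 1 := fun h => hb1 (left_eq_add.mp h)
  have h5 : c 1 ≠ c 0 + c 1 := fun h => hb0 (right_eq_add.mp h)
  exact ⟨hne hb0, hne hb1, hne h3, hne hb01, hne h4, hne h5⟩

theorem sd_sq (c : Module.Basis (Fin 2) (ZMod 2) (VV E 2)) : sd c ^ 2 = (E⁄Qb).Δ := by
  obtain ⟨h1, h2, h3, h4, h5, h6⟩ := basis_ne c
  exact (disc_eq (by norm_num) h1 h2 h3 (two_tors _) (two_tors _) (two_tors _) h4 h5 h6).symm

lemma sd_ne (c : Module.Basis (Fin 2) (ZMod 2) (VV E 2)) : sd c ≠ 0 := by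
  obtain ⟨h1, h2, h3, h4, h5, h6⟩ := basis_ne c
  have e1 := px_ne_of_two h1 h2 (two_tors (c 1)) h4
  have e2 := px_ne_of_two h1 h3 (two_tors (c 0 + c 1)) h5
  have e3 := px_ne_of_two h2 h3 (two_tors (c 0 + c 1)) h6
  exact mul_ne_zero (by norm_num) (mul_ne_zero (mul_ne_zero e1 e2) e3)

lemma px_rho (σ : GQ) (x : VV E 2) : σ (px (x : Pts E)) = px ((rho E 2 σ x : VV E 2) : Pts E) := by
  rw [← H09.px_smul]; rfl

lemma det_two {a b c d : ZMod 2} (h : (!![a, b; c, d] : M2 (ZMod 2)).det ≠ 0) :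
    (a = 1 ∧ b = 0 ∧ c = 0 ∧ d = 1) ∨ (a = 1 ∧ b = 1 ∧ c = 0 ∧ d = 1) ∨
    (a = 1 ∧ b = 0 ∧ c = 1 ∧ d = 1) ∨ (a = 0 ∧ b = 1 ∧ c = 1 ∧ d = 0) ∨
    (a = 1 ∧ b = 1 ∧ c = 1 ∧ d = 0) ∨ (a = 0 ∧ b = 1 ∧ c = 1 ∧ d = 1) := by
  revert a b c d; decide

/-- **The sign character.** -/
theorem sd_iff (c : Module.Basis (Fin 2) (ZMod 2) (VV E 2)) (σ : GQ) :
    (σ (sd c) = sd c ↔ (mtx c (rho E 2 σ) = 1 ∨ (mtx c (rho E 2 σ)).trace = 1)) ∧
      (σ (sd c) = sd c ∨ σ (sd c) = - sd c) := by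
  have hadd : ∀ x : VV E 2, x + x = 0 := fun x => Subtype.ext (two_tors x)
  have h0 := rho_basis c σ 0
  have h1 := rho_basis c σ 1
  have hdet : (mtx c (rho E 2 σ)).det ≠ 0 := by
    have h2 : mtx c (rho E 2 σ) * mtx c (rho E 2 σ⁻¹) = 1 := by
      rw [← map_mul, ← map_mul, mul_inv_cancel, map_one, map_one]
    have h3 := congrArg Matrix.det h2
    rw [Matrix.det_mul, Matrix.det_one] at h3
    exact left_ne_zero_of_mul_eq_one h3
  have hneg : sd c ≠ - sd c := by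
    intro h
    apply sd_ne c
    have h4 : (2 : Qb) * sd c = 0 := by linear_combination h
    exact (mul_eq_zero.mp h4).resolve_left two_ne_zero
  have hM := Matrix.eta_fin_two (mtx c (rho E 2 σ))
  have hσ : σ (sd c) = 4 * ((px ((rho E 2 σ (c 0) : VV E 2) : Pts E) -
      px ((rho E 2 σ (c 1) : VV E 2) : Pts E)) *
    (px ((rho E 2 σ (c 0) : VV E 2) : Pts E) - px ((rho E 2 σ (c 0 + c 1) : VV E 2) : Pts E)) *
    (px ((rho E 2 σ (c 1) : VV E 2) : Pts E) - px ((rho E 2 σ (c 0 + c 1) : VV E 2) : Pts E))) := by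
    simp only [sd, map_mul, _root_.map_sub, map_ofNat, px_rho]
  rw [map_add (rho E 2 σ), h0, h1] at hσ
  rw [hM] at hdet
  have key : ∀ {P : Prop}, P → (σ (sd c) = sd c) → ((σ (sd c) = sd c ↔ P) ∧
      (σ (sd c) = sd c ∨ σ (sd c) = - sd c)) := fun hP h => ⟨⟨fun _ => hP, fun _ => h⟩, Or.inl h⟩
  have key' : ∀ {P : Prop}, ¬ P → (σ (sd c) = - sd c) → ((σ (sd c) = sd c ↔ P) ∧
      (σ (sd c) = sd c ∨ σ (sd c) = - sd c)) := fun hP h =>
        ⟨⟨fun h' => absurd (h'.symm.trans h) hneg, fun h' => absurd h' hP⟩, Or.inr h⟩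
  have e1 : c 0 + c 1 + c 1 = c 0 := by rw [add_assoc, hadd, add_zero]
  have e2 : c 0 + c 1 + c 0 = c 1 := by rw [add_comm (c 0), add_assoc, hadd, add_zero]
  have e3 : c 0 + (c 0 + c 1) = c 1 := by rw [← add_assoc, hadd, zero_add]
  have e4 : c 1 + (c 0 + c 1) = c 0 := by rw [add_comm (c 0), ← add_assoc, hadd, zero_add]
  have e5 : c 1 + c 0 = c 0 + c 1 := add_comm _ _
  rcases det_two hdet with ⟨ha, hb, hc, hd⟩ | ⟨ha, hb, hc, hd⟩ | ⟨ha, hb, hc, hd⟩ |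
    ⟨ha, hb, hc, hd⟩ | ⟨ha, hb, hc, hd⟩ | ⟨ha, hb, hc, hd⟩ <;>
    rw [ha, hb, hc, hd] at hM hσ <;>
    simp only [one_smul, zero_smul, add_zero, zero_add, e1, e2, e3, e4, e5] at hσ <;> rw [hM]
  · exact key (by decide) hσ
  · exact key' (by decide) (by rw [hσ, sd]; ring)
  · exact key' (by decide) (by rw [hσ, sd]; ring)
  · exact key' (by decide) (by rw [hσ, sd]; ring)
  · exact key (by decide) (by rw [hσ, sd]; ring)
  · exact key (by decide) (by rw [hσ, sd]; ring)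

end

lemma gam_comm : ∀ a b c d : ZMod 2, (!![a, b; c, d] : M2 (ZMod 2)).det ≠ 0 →
    (gam * (!![a, b; c, d] : M2 (ZMod 2)) = !![a, b; c, d] * gam ↔
      ((!![a, b; c, d] : M2 (ZMod 2)) = 1 ∨ (!![a, b; c, d] : M2 (ZMod 2)).trace = 1)) := by
  decide

theorem mem_HH_iff (ρ0 : GQ →* M2 (ZMod 2)) (g : GQ) :
    g ∈ HH ρ0 ↔ (ρ0 g = 1 ∨ (ρ0 g).trace = 1) := by
  rw [mem_HH]
  have hdet : (ρ0 g).det ≠ 0 := by
    have h2 : ρ0 g * ρ0 g⁻¹ = 1 := by rw [← map_mul, mul_inv_cancel, map_one]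
    have h3 := congrArg Matrix.det h2
    rw [Matrix.det_mul, Matrix.det_one] at h3
    exact left_ne_zero_of_mul_eq_one h3
  rw [Matrix.eta_fin_two (ρ0 g)] at hdet ⊢
  exact gam_comm _ _ _ _ hdet

end Fermat.Agent.ZF
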