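import Mathlib
import Fermat.Agent.H29W.GlobalZ

/-!
# The ring of integers of `ℚ(√d)`, `d ≡ 2 mod 4`, `d < 0` squarefree
-/

set_option autoImplicit false

namespace Fermat.Agent.ZF

open NumberField Fermat.Agent.H29Z

section coord

variable {L : Type*} [Field L] [CharZero L] {δ : L} {d : ℤ}

theorem exists_coord (hδ : δ ^ 2 = (d : L)) (hd : d < 0) {x : L}
    (hx : x ∈ IntermediateField.adjoin ℚ {δ}) : ∃ a b : ℚ, x = a + b * δ := by
  induction hx using IntermediateField.adjoin_induction with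
  | mem x hx =>
    rw [Set.mem_singleton_iff] at hx
    exact ⟨0, 1, by rw [hx]; simp⟩
  | algebraMap q => exact ⟨q, 0, by simp⟩
  | add x y _ _ hx hy =>
    obtain ⟨a, b, rfl⟩ := hx
    obtain ⟨a', b', rfl⟩ := hy
    exact ⟨a + a', b + b', by push_cast; ring⟩
  | inv x _ hx =>
    obtain ⟨a, b, rfl⟩ := hx
    by_cases h0 : (a : ℚ) ^ 2 - d * b ^ 2 = 0
    · have hd' : (d : ℚ) < 0 := by exact_mod_cast hd
      have h1 : 0 ≤ a ^ 2 := sq_nonneg a
      have h2 : 0 ≤ -(d : ℚ) * b ^ 2 := mul_nonneg (by linarith) (sq_nonneg b)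
      have h3 : a ^ 2 = 0 := by linarith
      have h4 : -(d : ℚ) * b ^ 2 = 0 := by linarith
      have ha : a = 0 := by simpa using h3
      have hb : b = 0 := by
        have := (mul_eq_zero.mp h4).resolve_left (by linarith)
        simpa using this
      exact ⟨0, 0, by rw [ha, hb]; simp⟩
    · have h0' : ((a : L) ^ 2 - d * (b : L) ^ 2) ≠ 0 := by
        intro h
        apply h0
        have : (((a ^ 2 - d * b ^ 2 : ℚ)) : L) = ((0 : ℚ) : L) := by push_cast; exact h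
        exact_mod_cast this
      have hne : (a : L) + b * δ ≠ 0 := by
        intro h
        apply h0'
        linear_combination (a - b * δ) * h + (b : L) ^ 2 * hδ
      refine ⟨a / (a ^ 2 - d * b ^ 2), -b / (a ^ 2 - d * b ^ 2), ?_⟩
      rw [inv_eq_of_mul_eq_one_right]
      push_cast
      rw [show ((a : L) + b * δ) * (a / (a ^ 2 - d * b ^ 2) + -b / (a ^ 2 - d * b ^ 2) * δ) =
        (a ^ 2 - b ^ 2 * δ ^ 2) / (a ^ 2 - d * b ^ 2) by ring, hδ, div_eq_one_iff_eq h0']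
      ring
  | mul x y _ _ hx hy =>
    obtain ⟨a, b, rfl⟩ := hx
    obtain ⟨a', b', rfl⟩ := hy
    exact ⟨a * a' + d * b * b', a * b' + b * a', by
      push_cast; linear_combination (b : L) * b' * hδ⟩

theorem coord_unique (hδ : δ ^ 2 = (d : L)) (hd : d < 0) {a b : ℚ} (h : (a : L) + b * δ = 0) :
    a = 0 ∧ b = 0 := by
  have h0 : (a : ℚ) ^ 2 - d * b ^ 2 = 0 := by
    have : (((a ^ 2 - d * b ^ 2 : ℚ)) : L) = ((0 : ℚ) : L) := by
      push_cast
      linear_combination (a - b * δ) * h + (b : L) ^ 2 * hδ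
    exact_mod_cast this
  have hd' : (d : ℚ) < 0 := by exact_mod_cast hd
  have h1 : 0 ≤ a ^ 2 := sq_nonneg a
  have h2 : 0 ≤ -(d : ℚ) * b ^ 2 := mul_nonneg (by linarith) (sq_nonneg b)
  have h3 : a ^ 2 = 0 := by linarith
  have h4 : -(d : ℚ) * b ^ 2 = 0 := by linarith
  refine ⟨by simpa using h3, ?_⟩
  have := (mul_eq_zero.mp h4).resolve_left (by linarith)
  simpa using this

end coord

theorem int_of_sq {d : ℤ} (hsq : Squarefree d) {c : ℚ} {k : ℤ} (h : (d : ℚ) * c ^ 2 = k) :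
    ∃ z : ℤ, c = z := by
  have hden : (c.den : ℚ) ≠ 0 := by exact_mod_cast c.den_nz
  have h1 : (d : ℤ) * c.num ^ 2 = k * (c.den : ℤ) ^ 2 := by
    have h2 : (c.num : ℚ) = c * c.den := (Rat.mul_den_eq_num c).symm
    have h3 : ((d * c.num ^ 2 : ℤ) : ℚ) = ((k * (c.den : ℤ) ^ 2 : ℤ) : ℚ) := by
      push_cast
      rw [h2, ← h]
      ring
    exact_mod_cast h3
  have hcop : IsCoprime ((c.den : ℤ) ^ 2) (c.num ^ 2) := by
    apply IsCoprime.pow
    rw [Int.isCoprime_iff_gcd_eq_one, Int.gcd_comm]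
    exact c.reduced
  have h4 : (c.den : ℤ) ^ 2 ∣ d := by
    apply hcop.dvd_of_dvd_mul_right
    exact ⟨k, by rw [h1]; ring⟩
  have h5 : IsUnit (c.den : ℤ) := hsq _ (by rwa [← pow_two])
  have h6 : c.den = 1 := by
    rw [Int.isUnit_iff] at h5
    have := c.den_pos
    omega
  exact ⟨c.num, by rw [← Rat.mul_den_eq_num c, h6]; simp⟩

theorem int_of_trace_norm {d : ℤ} (hsq : Squarefree d) (hd4 : d % 4 = 2) {a b : ℚ} {m n : ℤ}
    (hm : 2 * a = m) (hn : a ^ 2 - d * b ^ 2 = n) : ∃ u v : ℤ, a = u ∧ b = v := by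
  have h1 : (d : ℚ) * (2 * b) ^ 2 = ((m ^ 2 - 4 * n : ℤ) : ℚ) := by
    push_cast
    rw [← hm, ← hn]
    ring
  obtain ⟨c, hc⟩ := int_of_sq hsq h1
  have h2 : m ^ 2 - 4 * n = d * c ^ 2 := by
    rw [hc] at h1
    exact_mod_cast h1.symm
  obtain ⟨e, he⟩ : ∃ e, d = 4 * e + 2 := ⟨d / 4, by omega⟩
  have h3 : m ^ 2 = 4 * (n + e * c ^ 2) + 2 * c ^ 2 := by rw [he] at h2; linarith
  have hmm : m % 2 = 0 := by
    rcases Int.even_or_odd' m with ⟨t, rfl | rfl⟩
    · omega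
    · ring_nf at h3; omega
  obtain ⟨u, rfl⟩ : ∃ u, m = 2 * u := ⟨m / 2, by omega⟩
  have hcc : c % 2 = 0 := by
    rcases Int.even_or_odd' c with ⟨t, rfl | rfl⟩
    · omega
    · ring_nf at h3; omega
  obtain ⟨v, rfl⟩ : ∃ v, c = 2 * v := ⟨c / 2, by omega⟩
  refine ⟨u, v, ?_, ?_⟩
  · push_cast at hm; linarith
  · push_cast at hc; linarith

section ring

variable {K : Type*} [Field K] [NumberField K] {δ : K} {d : ℤ}

/-- the embedding of the rational quadratic algebra -/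
noncomputable def iotaQ (hδ : δ ^ 2 = (d : K)) : QI ℚ d →ₐ[ℚ] K :=
  QuadraticAlgebra.lift ⟨δ, by
    rw [zero_smul, add_zero, ← pow_two, hδ, Algebra.smul_def, mul_one]; simp⟩

theorem iotaQ_apply (hδ : δ ^ 2 = (d : K)) (z : QI ℚ d) :
    iotaQ hδ z = (z.re : K) + (z.im : K) * δ := by
  simp [iotaQ, QuadraticAlgebra.lift, Algebra.smul_def]

theorem iotaQ_injective (hδ : δ ^ 2 = (d : K)) (hd : d < 0) :
    Function.Injective (iotaQ hδ) := by
  rw [injective_iff_map_eq_zero]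
  intro z hz
  rw [iotaQ_apply] at hz
  obtain ⟨h1, h2⟩ := coord_unique hδ hd hz
  ext
  · exact h1
  · exact h2

theorem int_of_isIntegral {q : ℚ} (h : IsIntegral ℤ q) : ∃ n : ℤ, q = n := by
  obtain ⟨n, hn⟩ := IsIntegrallyClosed.isIntegral_iff.mp h
  exact ⟨n, by rw [← hn]; simp⟩

theorem isInt_coord (hδ : δ ^ 2 = (d : K)) (hd : d < 0) (hsq : Squarefree d) (hd4 : d % 4 = 2)
    {a b : ℚ} (h : IsIntegral ℤ ((a : K) + (b : K) * δ)) : ∃ u v : ℤ, a = u ∧ b = v := by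
  let z : QI ℚ d := ⟨a, b⟩
  have h1 : IsIntegral ℤ z := by
    rw [← isIntegral_algHom_iff ((iotaQ hδ).restrictScalars ℤ) (iotaQ_injective hδ hd)]
    change IsIntegral ℤ (iotaQ hδ z)
    rw [iotaQ_apply]
    exact h
  have h2 : IsIntegral ℤ (star z) :=
    h1.map (starRingEnd (QI ℚ d)).toIntAlgHom
  have h3 : z + star z = algebraMap ℚ (QI ℚ d) (2 * a) := by
    ext
    · simp [z]; ring
    · simp [z]
  have h4 : z * star z = algebraMap ℚ (QI ℚ d) (a ^ 2 - d * b ^ 2) := by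
    rw [QuadraticAlgebra.algebraMap_eq]
    ext
    · simp only [z, QuadraticAlgebra.re_mul, QuadraticAlgebra.re_star, QuadraticAlgebra.im_star]
      ring
    · simp only [z, QuadraticAlgebra.im_mul, QuadraticAlgebra.re_star, QuadraticAlgebra.im_star]
      ring
  have h5 : IsIntegral ℤ (2 * a : ℚ) := by
    rw [← isIntegral_algebraMap_iff (A := ℚ) (B := QI ℚ d) QuadraticAlgebra.algebraMap_injective,
      ← h3]
    exact h1.add h2
  have h6 : IsIntegral ℤ (a ^ 2 - d * b ^ 2 : ℚ) := by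
    rw [← isIntegral_algebraMap_iff (A := ℚ) (B := QI ℚ d) QuadraticAlgebra.algebraMap_injective,
      ← h4]
    exact h1.mul h2
  obtain ⟨m, hm⟩ := int_of_isIntegral h5
  obtain ⟨n, hn⟩ := int_of_isIntegral h6
  exact int_of_trace_norm hsq hd4 hm hn

omit [NumberField K] in
theorem isIntegral_delta (hδ : δ ^ 2 = (d : K)) : IsIntegral ℤ δ := by
  refine IsIntegral.of_pow (n := 2) (by norm_num) ?_
  rw [hδ]
  exact isIntegral_algebraMap (R := ℤ) (A := K) (x := d)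

/-- the map `ℤ[√d] → K` -/
noncomputable def psi0 (hδ : δ ^ 2 = (d : K)) : QI ℤ d →ₐ[ℤ] K :=
  QuadraticAlgebra.lift ⟨δ, by
    rw [zero_smul, add_zero, ← pow_two, hδ, Algebra.smul_def, mul_one]; simp⟩

omit [NumberField K] in
theorem psi0_apply (hδ : δ ^ 2 = (d : K)) (z : QI ℤ d) :
    psi0 hδ z = (z.re : K) + (z.im : K) * δ := by
  simp [psi0, QuadraticAlgebra.lift, Algebra.smul_def]

/-- the map `ℤ[√d] → 𝓞 K` -/
noncomputable def psiK (hδ : δ ^ 2 = (d : K)) : QI ℤ d →+* 𝓞 K :=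
  (psi0 hδ : QI ℤ d →+* K).codRestrict (integralClosure ℤ K) (by
    intro z
    change IsIntegral ℤ (psi0 hδ z)
    rw [psi0_apply]
    exact (isIntegral_algebraMap (R := ℤ) (A := K) (x := z.re)).add
      ((isIntegral_algebraMap (R := ℤ) (A := K) (x := z.im)).mul (isIntegral_delta hδ)))

omit [NumberField K] in
theorem psiK_apply (hδ : δ ^ 2 = (d : K)) (z : QI ℤ d) :
    ((psiK hδ z : 𝓞 K) : K) = (z.re : K) + (z.im : K) * δ := psi0_apply hδ z

/-- **The ring of integers of `ℚ(√d)`.** -/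
theorem exists_ringEquiv (hδ : δ ^ 2 = (d : K)) (hd : d < 0) (hsq : Squarefree d)
    (hd4 : d % 4 = 2) (hgen : ∀ x : K, ∃ a b : ℚ, x = a + b * δ) :
    ∃ e : 𝓞 K ≃+* QI ℤ d, ∀ x : 𝓞 K, (x : K) = ((e x).re : K) + ((e x).im : K) * δ := by
  have hbij : Function.Bijective (psiK hδ) := by
    constructor
    · rw [injective_iff_map_eq_zero]
      intro z hz
      have h1 : ((psiK hδ z : 𝓞 K) : K) = 0 := by rw [hz]; rfl
      rw [psiK_apply] at h1
      have h2 : (((z.re : ℚ) : K)) + (((z.im : ℚ)) : K) * δ = 0 := by push_cast; exact h1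
      obtain ⟨h3, h4⟩ := coord_unique hδ hd h2
      ext
      · exact_mod_cast h3
      · exact_mod_cast h4
    · intro x
      obtain ⟨a, b, hab⟩ := hgen x
      have hint : IsIntegral ℤ ((a : K) + (b : K) * δ) := by
        rw [← hab]; exact x.isIntegral_coe
      obtain ⟨u, v, hu, hv⟩ := isInt_coord hδ hd hsq hd4 hint
      refine ⟨⟨u, v⟩, RingOfIntegers.ext ?_⟩
      rw [psiK_apply, hab, hu, hv]
      push_cast
      rfl
  let e0 := RingEquiv.ofBijective (psiK hδ) hbij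
  refine ⟨e0.symm, fun x => ?_⟩
  rw [← psiK_apply hδ]
  exact congrArg (fun y : 𝓞 K => (y : K)) (e0.apply_symm_apply x).symm

end ring

end Fermat.Agent.ZF
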