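import Mathlib
import Fermat.Agent.ZF.Disc
import Fermat.Agent.ZF.Quad
import Fermat.Agent.ZC.CFTForm

/-!
# PROGRAM Z: the quadratic field of a curve
-/

set_option autoImplicit false

namespace Fermat.Agent.ZF

open IsLocalRing
open WeierstrassCurve WeierstrassCurve.Affine WeierstrassCurve.Affine.Point
open Fermat.Agent.H08 Fermat.Agent.Frob Fermat.Agent.EGal Fermat.Agent.Ell
open Fermat.Agent.Z34 (GDat M2 HH mem_HH gam)
open NumberField Fermat.Agent.H29Z

/-- the conductor -/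
noncomputable def NW (W : WeierstrassCurve ℤ) : ℕ := ∏ q ∈ W.Δ.natAbs.primeFactors, q

/-- half the conductor -/
noncomputable def MW (W : WeierstrassCurve ℤ) : ℕ := NW W / 2

section

variable {W : WeierstrassCurve ℤ}

theorem NW_squarefree (W : WeierstrassCurve ℤ) : Squarefree (NW W) := by
  refine Finset.squarefree_prod_of_pairwise_isCoprime ?_ ?_
  · intro q hq q' hq' hne
    exact Nat.coprime_iff_isRelPrime.mp ((Nat.coprime_primes (Nat.prime_of_mem_primeFactors hq)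
      (Nat.prime_of_mem_primeFactors hq')).mpr hne)
  · intro q hq
    exact (Nat.prime_of_mem_primeFactors hq).prime.squarefree

theorem NW_ne_zero (W : WeierstrassCurve ℤ) : NW W ≠ 0 := (NW_squarefree W).ne_zero

theorem dvd_NW_iff (hΔ : W.Δ ≠ 0) {q : ℕ} (hq : q.Prime) : q ∣ NW W ↔ (q : ℤ) ∣ W.Δ := by
  rw [NW, (Nat.prime_iff.mp hq).dvd_finsetProd_iff]
  constructor
  · rintro ⟨p, hp, hqp⟩
    rw [(Nat.prime_dvd_prime_iff_eq hq (Nat.prime_of_mem_primeFactors hp)).mp hqp]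
    exact Int.natCast_dvd.mpr (Nat.dvd_of_mem_primeFactors hp)
  · intro h
    exact ⟨q, Nat.mem_primeFactors.mpr ⟨hq, Int.natCast_dvd.mp h, Int.natAbs_ne_zero.mpr hΔ⟩,
      dvd_rfl⟩

theorem two_dvd_NW (h : ZCurve W) : 2 ∣ NW W :=
  (dvd_NW_iff h.neg.ne Nat.prime_two).mpr h.two

theorem two_mul_MW (h : ZCurve W) : 2 * MW W = NW W := Nat.mul_div_cancel' (two_dvd_NW h)

theorem MW_odd (h : ZCurve W) : Odd (MW W) := by
  rw [← Nat.not_even_iff_odd, even_iff_two_dvd]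
  rintro ⟨k, hk⟩
  have h1 := NW_squarefree W 2 ⟨k, by rw [← two_mul_MW h, hk]; ring⟩
  exact absurd h1 (by decide)

theorem MW_pos (h : ZCurve W) : 0 < MW W := (MW_odd h).pos

theorem one_lt_MW (h : ZCurve W) : 1 < MW W := by
  obtain ⟨ℓ, hℓ, h4, hΔ⟩ := h.three
  have h1 := (dvd_NW_iff h.neg.ne hℓ).mpr hΔ
  rw [← two_mul_MW h] at h1
  have h2 : ¬ ℓ ∣ 2 := fun h' => by
    rw [(Nat.prime_dvd_prime_iff_eq hℓ Nat.prime_two).mp h'] at h4
    omega
  have h3 := (hℓ.dvd_mul.mp h1).resolve_left h2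
  exact lt_of_lt_of_le hℓ.one_lt (Nat.le_of_dvd (MW_pos h) h3)

theorem d_squarefree (h : ZCurve W) : Squarefree (-2 * (MW W : ℤ)) := by
  have h1 : (-2 * (MW W : ℤ)) = -((NW W : ℕ) : ℤ) := by
    rw [← two_mul_MW h]; push_cast; ring
  rw [h1, ← Int.squarefree_natAbs, Int.natAbs_neg, Int.natAbs_natCast]
  exact NW_squarefree W

theorem d_neg (h : ZCurve W) : (-2 * (MW W : ℤ)) < -1 := by
  have := one_lt_MW h
  omega

theorem d_mod_four (h : ZCurve W) : (-2 * (MW W : ℤ)) % 4 = 2 := by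
  obtain ⟨k, hk⟩ := MW_odd h
  rw [hk]
  push_cast
  omega

/-- the discriminant up to squares -/
theorem exists_Delta (h : ZCurve W) : ∃ t : ℤ, t ≠ 0 ∧ W.Δ = (-2 * (MW W : ℤ)) * t ^ 2 := by
  have hΔ := h.neg.ne
  set n := W.Δ.natAbs with hn
  have hn0 : n ≠ 0 := Int.natAbs_ne_zero.mpr hΔ
  have hodd : ∀ q ∈ n.primeFactors, n.factorization q = 1 + 2 * ((n.factorization q - 1) / 2) := by
    intro q hq
    have hqp := Nat.prime_of_mem_primeFactors hq
    have h1 := h.odd q hqp (Int.natCast_dvd.mpr (Nat.dvd_of_mem_primeFactors hq))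
    rw [padicValInt, ← hn, ← Nat.factorization_def _ hqp] at h1
    obtain ⟨k, hk⟩ := h1
    omega
  have h2 : n = NW W * (∏ q ∈ n.primeFactors, q ^ ((n.factorization q - 1) / 2)) ^ 2 := by
    conv_lhs => rw [← Nat.prod_factorization_pow_eq_self hn0]
    rw [Finsupp.prod, Nat.support_factorization, NW, ← hn, ← Finset.prod_pow,
      ← Finset.prod_mul_distrib]
    refine Finset.prod_congr rfl fun q hq => ?_
    rw [hodd q hq]
    rw [pow_add, pow_one, pow_mul']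
    congr 3
    omega
  set t := ∏ q ∈ n.primeFactors, q ^ ((n.factorization q - 1) / 2) with ht
  have ht0 : t ≠ 0 := by
    rintro h0
    rw [h0] at h2
    simp at h2
    exact hn0 h2
  refine ⟨t, by exact_mod_cast ht0, ?_⟩
  have h3 : W.Δ = -(n : ℤ) := by
    rw [hn, Int.natCast_natAbs, abs_of_neg h.neg, neg_neg]
  rw [h3, h2, ← two_mul_MW h]
  push_cast
  ring

/-- the square root of `-2M` -/
theorem exists_delta (h : ZCurve W) : ∃ δ : Qb, δ ^ 2 = ((-2 * (MW W : ℤ) : ℤ) : Qb) ∧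
    ∀ (b : Module.Basis (Fin 2) ℤ_[2] (TT (WQ W) 2)) (σ : GQ),
      (σ δ = δ ↔ (rho0 b σ = 1 ∨ (rho0 b σ).trace = 1)) ∧ (σ δ = δ ∨ σ δ = - δ) := by
  have hell := isElliptic_WQ h.neg.ne
  obtain ⟨t, ht, hΔ⟩ := exists_Delta h
  have ht' : (t : Qb) ≠ 0 := Int.cast_ne_zero.mpr ht
  obtain ⟨δ, hδ⟩ : ∃ δ : Qb, δ ^ 2 = ((-2 * (MW W : ℤ) : ℤ) : Qb) :=
    IsAlgClosed.exists_pow_nat_eq _ two_pos
  refine ⟨δ, hδ, fun b σ => ?_⟩
  have h1 : sd (redBasis b) ^ 2 = (t * δ) ^ 2 := by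
    rw [sd_sq, Delta_Qb, hΔ, mul_pow, hδ]
    push_cast
    ring
  obtain ⟨h2, h3⟩ := sd_iff (redBasis b) σ
  rw [rho0_eq_mtx]
  have hσt : σ (t : Qb) = t := map_intCast σ t
  rcases sq_eq_sq_iff_eq_or_eq_neg.mp h1 with h4 | h4
  · rw [h4, map_mul, hσt] at h2 h3
    refine ⟨by rw [← h2]; exact ⟨fun h => by rw [h], fun h => mul_left_cancel₀ ht' h⟩, ?_⟩
    rcases h3 with h3 | h3
    · exact Or.inl (mul_left_cancel₀ ht' h3)
    · exact Or.inr (mul_left_cancel₀ ht' (by rw [h3]; ring))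
  · rw [h4, map_neg, map_mul, hσt] at h2 h3
    refine ⟨by rw [← h2]; exact ⟨fun h => by rw [h], fun h => mul_left_cancel₀ ht' (neg_injective h)⟩, ?_⟩
    rcases h3 with h3 | h3
    · exact Or.inl (mul_left_cancel₀ ht' (neg_injective h3))
    · exact Or.inr (mul_left_cancel₀ ht' (neg_injective (by rw [h3]; ring)))

/-- the square root of `-2M` -/
noncomputable def delta (h : ZCurve W) : Qb := (exists_delta h).choose

theorem delta_sq (h : ZCurve W) : delta h ^ 2 = ((-2 * (MW W : ℤ) : ℤ) : Qb) :=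
  (exists_delta h).choose_spec.1

theorem delta_iff (h : ZCurve W) (b : Module.Basis (Fin 2) ℤ_[2] (TT (WQ W) 2)) (σ : GQ) :
    σ (delta h) = delta h ↔ (rho0 b σ = 1 ∨ (rho0 b σ).trace = 1) :=
  ((exists_delta h).choose_spec.2 b σ).1

theorem delta_pm (h : ZCurve W) (σ : GQ) : σ (delta h) = delta h ∨ σ (delta h) = - delta h := by
  have h1 := congrArg σ (delta_sq h)
  rw [map_pow, map_intCast, ← delta_sq h] at h1
  exact sq_eq_sq_iff_eq_or_eq_neg.mp h1

/-- **The quadratic field.** -/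
noncomputable def KW (h : ZCurve W) : IntermediateField ℚ Qb :=
  IntermediateField.adjoin ℚ {delta h}

instance (h : ZCurve W) : FiniteDimensional ℚ (KW h) :=
  IntermediateField.adjoin.finiteDimensional (Algebra.IsIntegral.isIntegral (delta h))

instance (h : ZCurve W) : NumberField (KW h) := ⟨⟩

theorem delta_mem (h : ZCurve W) : delta h ∈ KW h :=
  IntermediateField.mem_adjoin_simple_self ℚ _

/-- the square root of `-2M` in `K` -/
noncomputable def deltaK (h : ZCurve W) : KW h := ⟨delta h, delta_mem h⟩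

theorem deltaK_sq (h : ZCurve W) : deltaK h ^ 2 = ((-2 * (MW W : ℤ) : ℤ) : KW h) := by
  apply Subtype.ext
  have := delta_sq h
  push_cast at this ⊢
  exact this

theorem mem_fixingSubgroup_KW (h : ZCurve W) (σ : GQ) :
    σ ∈ (KW h).fixingSubgroup ↔ σ (delta h) = delta h := by
  rw [IntermediateField.mem_fixingSubgroup_iff]
  constructor
  · intro h1
    exact h1 _ (delta_mem h)
  · intro h1 x hx
    obtain ⟨a, b, rfl⟩ := exists_coord (delta_sq h) (by have := d_neg h; omega) hx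
    rw [map_add, map_mul, h1, map_ratCast, map_ratCast]

theorem HH_eq (h : ZCurve W) (b : Module.Basis (Fin 2) ℤ_[2] (TT (WQ W) 2)) :
    HH (rho0 b) = (KW h).fixingSubgroup := by
  ext σ
  rw [mem_HH_iff, mem_fixingSubgroup_KW, delta_iff h b]

theorem KW_complex (h : ZCurve W) (w : InfinitePlace (KW h)) : w.IsComplex := by
  refine ZC.isComplex_of_sq_neg (δ := deltaK h) (d := ((-2 * (MW W : ℤ) : ℤ) : ℚ)) ?_ ?_ w
  · have := d_neg h
    exact_mod_cast (by omega : (-2 * (MW W : ℤ)) < 0)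
  · rw [deltaK_sq]
    simp

theorem exists_eK (h : ZCurve W) : ∃ e : 𝓞 (KW h) ≃+* QI ℤ (-2 * (MW W : ℤ)),
    ∀ x : 𝓞 (KW h), (x : KW h) = ((e x).re : KW h) + ((e x).im : KW h) * deltaK h := by
  refine exists_ringEquiv (deltaK_sq h) (by have := d_neg h; omega) (d_squarefree h)
    (d_mod_four h) fun x => ?_
  obtain ⟨a, b, hab⟩ := exists_coord (delta_sq h) (by have := d_neg h; omega) x.2
  refine ⟨a, b, Subtype.ext ?_⟩
  rw [hab]
  push_cast
  rfl

/-- `2`-part of the class number -/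
noncomputable def hW (h : ZCurve W) : ℕ :=
  2 ^ padicValNat 2 (Nat.card (ClassGroup (𝓞 (KW h))))

/-- **CFT(h)** for the data of `W`. -/
theorem cft_W (h : ZCurve W) {m : ℕ} {Q : Finset Nat.Primes} {Y : GDat}
    {b : Module.Basis (Fin 2) ℤ_[2] (TT (WQ W) 2)} (hY : IsZ W m Q Y b) :
    Z34.CFT Y.toDat.𝓛 Y.toDat.ρ0 Y.toDat.I (hW h) := by
  have hρ : Y.ρ0 = rho0 b := MonoidHom.ext hY.ρ0
  refine ZC.cft_form (S := Y.Sg) (ρ0 := Y.ρ0) Y.toDat.I (fun q hq => ?_) (KW h) ?_ (KW_complex h)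
  · exact ⟨⟨q, hq⟩, Y.A q, Y.hA q, le_rfl⟩
  · rw [hρ]
    exact HH_eq h b

end

end Fermat.Agent.ZF
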