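import Mathlib
import Fermat.Agent.H23.Residual
import Fermat.Agent.AL.Count
import Fermat.Agent.H24H.Lattice
import Fermat.Agent.H11Q.Residue
import Fermat.Agent.H05.Geom
import Fermat.Agent.H25.Density
import Fermat.Agent.H27.Z3Span2

/-!
# The residual representation of a newform, at a place of `ℂ`
-/

set_option autoImplicit false
set_option maxSynthPendingDepth 3

namespace Fermat.Agent.ZF

open IsLocalRing Polynomial CongruenceSubgroup ModularFormClass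
open Fermat.Agent.TC (Pr)
open Fermat.Agent.AL (NF nfSys)
open Fermat.Agent.H24H (LamA)

local notation "GQ" => (AlgebraicClosure ℚ ≃ₐ[ℚ] AlgebraicClosure ℚ)
local notation "Qb" => AlgebraicClosure ℚ

/-- the residue characteristic -/
theorem charP_residue_two {A : ValuationSubring ℂ} (hA : (2 : ℂ) ∈ A.nonunits) :
    CharP (ResidueField A) 2 := by
  rw [CharP.charP_iff_prime_eq_zero Nat.prime_two]
  have h1 : ((2 : ℕ) : ResidueField A) = residue A ((2 : ℕ) : A) := (map_natCast _ 2).symm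
  rw [h1, residue_eq_zero_iff, ← ValuationSubring.coe_mem_nonunits_iff]
  exact_mod_cast hA

/-- algebraic integers lie in `A` -/
noncomputable def toA (A : ValuationSubring ℂ) : integralClosure ℤ ℂ →+* A :=
  (algebraMap (integralClosure ℤ ℂ) ℂ).codRestrict A.toSubring fun x =>
    H05.mem_of_isIntegral A x.2

theorem coe_toA (A : ValuationSubring ℂ) (x : integralClosure ℤ ℂ) : (toA A x : ℂ) = x := rfl

/-- matrices of a residual representation -/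
theorem exists_matrix {k : Type} [Field k] (ρ : ResidualGaloisRep k) :
    ∃ r : GQ →* Matrix (Fin 2) (Fin 2) k, (∃ F : IntermediateField ℚ Qb, FiniteDimensional ℚ F ∧
      ∀ u ∈ F.fixingSubgroup, r u = 1) ∧ (∀ σ, (r σ).charpoly = LinearMap.charpoly (ρ.ρ σ)) ∧
      ∀ σ, ρ.ρ σ = 1 → r σ = 1 := by
  let b : Module.Basis (Fin 2) k ρ.V := Module.finBasisOfFinrankEq _ _ ρ.finrank_eq
  have h1 : ∀ σ, ρ.ρ σ = 1 → LinearMap.toMatrixAlgEquiv b (ρ.ρ σ) = 1 := fun σ h => by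
    rw [h, map_one]
  refine ⟨(LinearMap.toMatrixAlgEquiv b).toAlgHom.toRingHom.toMonoidHom.comp ρ.ρ, ?_, ?_, h1⟩
  · obtain ⟨F, hF, hF1⟩ := ρ.factorsThroughFiniteLevel
    refine ⟨F, hF, fun u hu => ?_⟩
    rw [IntermediateField.mem_fixingSubgroup_iff] at hu
    exact h1 u (hF1 u hu)
  · intro σ
    exact LinearMap.charpoly_toMatrix (ρ.ρ σ) b

/-- **The residual representation of a newform.** -/
theorem exists_resid {D L : ℕ} (hD : D ≠ 0) (hLD : L ∣ D) (h2D : 2 ∣ D) {A : ValuationSubring ℂ}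
    (hA : (2 : ℂ) ∈ A.nonunits) (a : Pr D → ResidueField A) (g : NF D L (LamA A a)) :
    ∃ r : GQ →* Matrix (Fin 2) (Fin 2) (ResidueField A),
      (∃ F : IntermediateField ℚ Qb, FiniteDimensional ℚ F ∧ ∀ u ∈ F.fixingSubgroup, r u = 1) ∧
      (∀ σ, (r σ).det = 1) ∧
      (∀ (ℓ : Pr D) (A' : ValuationSubring Qb), A'.LiesOverPrime (ℓ : ℕ) →
        ∀ φ : GQ, A'.IsFrobeniusAt φ ℓ → (r φ).trace = a ℓ) ∧
      ∀ q : ℕ, q.Prime → ¬ q ∣ L → q ≠ 2 → ∀ A' : ValuationSubring Qb, A'.LiesOverPrime q →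
        ∀ σ ∈ A'.inertiaSubgroupIn ℚ, r σ = 1 := by
  classical
  have : NeZero L := ⟨fun h => hD (by rw [h] at hLD; exact Nat.eq_zero_of_zero_dvd hLD)⟩
  have hch := charP_residue_two hA
  have : IsAlgClosed (ResidueField A) := H11Q.isAlgClosed_residueField A
  obtain ⟨g, hg, hsys⟩ := g
  set S : Set ℕ := {q | q.Prime ∧ q ∣ 2 * L} with hSdef
  let χ : CuspForm.heckeAlgebra L 2 S →+* ResidueField A :=
    ((residue A).comp (toA A)).comp (H23.eigenChar hg.1 S)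
  obtain ⟨ρ, h1, h2⟩ := H23.exists_residual (S := S) H25.weakChebotarev (p := 2) (N := L)
    Nat.prime_two ⟨Nat.prime_two, dvd_mul_right 2 L⟩ (fun q hq hqL => ⟨hq, hqL.mul_left 2⟩)
    (fun ℓ hℓ hℓL hℓ2 h => by
      rcases (Nat.Prime.dvd_mul hℓ).mp h.2 with h' | h'
      · exact hℓ2 ((Nat.prime_dvd_prime_iff_eq hℓ Nat.prime_two).mp h')
      · exact hℓL h')
    (H05.heckeGaloisInput Nat.prime_two L S) χ
  obtain ⟨r, hr1, hr2, hr3⟩ := exists_matrix ρ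
  have hcp : ∀ (ℓ : ℕ) (hℓ : ℓ.Prime) (hℓN : ¬ ℓ ∣ L) (hℓ2 : ℓ ≠ 2),
        ∀ A' : ValuationSubring Qb, A'.LiesOverPrime ℓ → ∀ φ : GQ, A'.IsFrobeniusAt φ ℓ →
        (r φ).trace = χ (CuspForm.heckeAlgebra.T hℓ hℓN (fun h => by
          rcases (Nat.Prime.dvd_mul hℓ).mp h.2 with h' | h'
          · exact hℓ2 ((Nat.prime_dvd_prime_iff_eq hℓ Nat.prime_two).mp h')
          · exact hℓN h')) ∧ (r φ).det = (ℓ : ResidueField A) := by
    intro ℓ hℓ hℓN hℓ2 A' hA' φ hφ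
    have h3 := h1 ℓ hℓ hℓN hℓ2 A' hA' φ hφ
    rw [← hr2, Matrix.charpoly_fin_two] at h3
    have h4 := congrArg (fun P : Polynomial (ResidueField A) => P.coeff 1) h3
    have h5 := congrArg (fun P : Polynomial (ResidueField A) => P.coeff 0) h3
    simp at h4 h5
    exact ⟨h4, h5⟩
  have hcast : ∀ ℓ : ℕ, ℓ.Prime → ℓ ≠ 2 → (ℓ : ResidueField A) = 1 := by
    intro ℓ hℓ hℓ2
    obtain ⟨m, hm⟩ := hℓ.odd_of_ne_two hℓ2
    rw [hm]
    have : ((2 : ℕ) : ResidueField A) = 0 := CharP.cast_eq_zero _ 2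
    push_cast at this ⊢
    rw [this, zero_mul, zero_add]
  refine ⟨r, hr1, ?_, ?_, ?_⟩
  · intro σ
    obtain ⟨F, hF, hFr⟩ := hr1
    obtain ⟨ℓ, hℓ, hℓT, A', hA', φ, hφ, m, n, -, hn⟩ := H25.exists_frobenius F
      (2 * L).primeFactors σ
    have hL0 : 2 * L ≠ 0 := mul_ne_zero two_ne_zero (NeZero.ne L)
    have hℓ2L : ¬ ℓ ∣ 2 * L := fun h => hℓT (Nat.mem_primeFactors.mpr ⟨hℓ, h, hL0⟩)
    have hℓ2 : ℓ ≠ 2 := fun h => hℓ2L (h ▸ dvd_mul_right 2 L)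
    have hℓL : ¬ ℓ ∣ L := fun h => hℓ2L (h.mul_left 2)
    have h3 : r σ = r φ ^ n := by
      have h4 : (φ ^ n)⁻¹ * σ ∈ F.fixingSubgroup := by
        rw [IntermediateField.mem_fixingSubgroup_iff]
        intro x hx
        rw [AlgEquiv.mul_apply, hn x hx, ← AlgEquiv.mul_apply, inv_mul_cancel]
        rfl
      have h5 : σ = φ ^ n * ((φ ^ n)⁻¹ * σ) := by group
      rw [h5, map_mul, hFr _ h4, mul_one, map_pow]
    rw [h3, Matrix.det_pow, (hcp ℓ hℓ hℓL hℓ2 A' hA' φ hφ).2, hcast ℓ hℓ hℓ2, one_pow]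
  · intro ℓ A' hA' φ hφ
    have hℓL : ¬ (ℓ : ℕ) ∣ L := fun h => ℓ.2.2 (h.trans hLD)
    have hℓ2 : (ℓ : ℕ) ≠ 2 := fun h => ℓ.2.2 (h ▸ h2D)
    rw [(hcp ℓ ℓ.2.1 hℓL hℓ2 A' hA' φ hφ).1]
    obtain ⟨h3, h4⟩ := hsys ℓ
    rw [← h4]
    change residue A (toA A (H23.eigenChar hg.1 S _)) = _
    congr 1
    apply Subtype.ext
    rw [coe_toA, H23.coe_eigenChar_T]
    rfl
  · intro q hq hqL hq2 A' hA' σ hσ
    refine hr3 σ (h2 q hq ?_ A' hA' σ hσ)
    intro h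
    rcases (Nat.Prime.dvd_mul hq).mp h with h' | h'
    · exact hqL h'
    · exact hq2 ((Nat.prime_dvd_prime_iff_eq hq Nat.prime_two).mp h')

end Fermat.Agent.ZF
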