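import Mathlib
import Fermat.Agent.ZF.Resid
import Fermat.Agent.ZF.Field
import Fermat.Agent.ZC.ChebBdd
import Fermat.Agent.H27.Z4Bound

/-!
# Identification of residual systems of eigenvalues
-/

set_option autoImplicit false
set_option maxSynthPendingDepth 3

namespace Fermat.Agent.ZF

open IsLocalRing
open WeierstrassCurve
open Fermat.Agent.H08 Fermat.Agent.Frob Fermat.Agent.EGal Fermat.Agent.Ell
open Fermat.Agent.Z34 (GDat M2 HH mem_HH gam)
open Fermat.Agent.TC (Pr)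
open Fermat.Agent.AL (NF nfSys)
open Fermat.Agent.H24H (LamA)

section trace

theorem trace_rec {R : Type*} [CommRing R] (N : M2 R) (m : ℕ) (hN : N.det = 1) :
    (N ^ (m + 2)).trace = N.trace * (N ^ (m + 1)).trace - (N ^ m).trace := by
  have h1 : N ^ (m + 2) = N.trace • N ^ (m + 1) - N ^ m := by
    rw [pow_add, pow_two, Z34.M2_sq, hN, one_smul, mul_sub, mul_one, mul_smul_comm, ← pow_succ]
  rw [h1, Matrix.trace_sub, Matrix.trace_smul, smul_eq_mul]

variable {k : Type*} [CommRing k] [CharP k 2]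

/-- traces of powers -/
theorem trace_pow_eq (M : M2 k) (M0 : M2 (ZMod 2)) (hd : M.det = 1) (hd0 : M0.det = 1)
    (ht : M.trace = ZMod.castHom (dvd_refl 2) k M0.trace) (n : ℕ) :
    (M ^ n).trace = ZMod.castHom (dvd_refl 2) k (M0 ^ n).trace := by
  induction n using Nat.strong_induction_on with
  | _ n ih =>
    rcases n with _ | _ | n
    · simp only [pow_zero, Matrix.trace_one, Fintype.card_fin]
      rw [map_natCast]
    · simpa using ht
    · rw [trace_rec M n hd, trace_rec M0 n hd0, ih (n + 1) (by omega), ih n (by omega), ht,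
        map_sub, map_mul]

theorem det_rho0 (ρ0 : GQ →* M2 (ZMod 2)) (σ : GQ) : (ρ0 σ).det = 1 := by
  have h2 : ρ0 σ * ρ0 σ⁻¹ = 1 := by rw [← map_mul, mul_inv_cancel, map_one]
  have h3 := congrArg Matrix.det h2
  rw [Matrix.det_mul, Matrix.det_one] at h3
  have h4 : (ρ0 σ).det ≠ 0 := left_ne_zero_of_mul_eq_one h3
  exact (zmod2 _).resolve_left h4

/-- elements which agree on `F` -/
theorem map_eq_of_agree {M : Type*} [Monoid M] (r : GQ →* M) {F : IntermediateField ℚ Qb}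
    (hr : ∀ u ∈ F.fixingSubgroup, r u = 1) {σ τ : GQ} (h : ∀ x ∈ F, σ x = τ x) : r σ = r τ := by
  have h4 : τ⁻¹ * σ ∈ F.fixingSubgroup := by
    rw [IntermediateField.mem_fixingSubgroup_iff]
    intro x hx
    rw [AlgEquiv.mul_apply, h x hx, ← AlgEquiv.mul_apply, inv_mul_cancel]
    rfl
  have h5 : σ = τ * (τ⁻¹ * σ) := by group
  rw [h5, map_mul, hr _ h4, mul_one]

/-- **Identification** of residual representations with values in `F_2`. -/
theorem ident (r : GQ →* M2 k)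
    (hr : ∃ F : IntermediateField ℚ Qb, FiniteDimensional ℚ F ∧ ∀ u ∈ F.fixingSubgroup, r u = 1)
    (hdet : ∀ σ, (r σ).det = 1) (ρ0 : GQ →* M2 (ZMod 2))
    (h0 : ∃ F : IntermediateField ℚ Qb, FiniteDimensional ℚ F ∧ ∀ u ∈ F.fixingSubgroup, ρ0 u = 1)
    {T : Set ℕ} (hT : ZC.BddQ T)
    (h : ∀ ℓ : ℕ, ℓ.Prime → ℓ ∉ T → ∀ A : ValuationSubring Qb, A.LiesOverPrime ℓ →
      ∀ φ : GQ, A.IsFrobeniusAt φ ℓ → (r φ).trace = ZMod.castHom (dvd_refl 2) k (ρ0 φ).trace)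
    (σ : GQ) : (r σ).trace = ZMod.castHom (dvd_refl 2) k (ρ0 σ).trace := by
  obtain ⟨F, hF, hFr⟩ := hr
  obtain ⟨F0, hF0, hF0r⟩ := h0
  have : FiniteDimensional ℚ (F ⊔ F0 : IntermediateField ℚ Qb) :=
    IntermediateField.finiteDimensional_sup F F0
  obtain ⟨ℓ, hℓ, hℓT, A, hA, φ, hφ, m, n, -, hn⟩ := ZC.exists_frobenius_bdd (F ⊔ F0) hT σ
  have h1 : r σ = r φ ^ n := by
    rw [← map_pow]
    exact map_eq_of_agree r hFr fun x hx => hn x ((le_sup_left (a := F) (b := F0)) hx)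
  have h2 : ρ0 σ = ρ0 φ ^ n := by
    rw [← map_pow]
    exact map_eq_of_agree ρ0 hF0r fun x hx => hn x ((le_sup_right (a := F) (b := F0)) hx)
  rw [h1, h2]
  exact trace_pow_eq _ _ (hdet φ) (det_rho0 ρ0 φ) (h ℓ hℓ hℓT A hA φ hφ) n

end trace

section curve

variable {W : WeierstrassCurve ℤ}

/-- open kernel of the mod `2` representation -/
theorem rho0_open (h : ZCurve W) (b : Module.Basis (Fin 2) ℤ_[2] (TT (WQ W) 2)) :
    ∃ F : IntermediateField ℚ Qb, FiniteDimensional ℚ F ∧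
      ∀ u ∈ F.fixingSubgroup, rho0 b u = 1 := by
  have hΔ := h.neg.ne
  have hell := isElliptic_WQ hΔ
  obtain ⟨F, hF, hFW⟩ := torsFix_open (W := W) hΔ (S := bad W) (n := 2) two_ne_zero (by
      intro q hq
      rw [mem_bad hΔ] at hq
      refine ⟨hq, fun h2 => hq ?_⟩
      rw [(Nat.prime_dvd_prime_iff_eq q.2 Nat.prime_two).mp h2]
      exact h.two)
  exact ⟨F, hF.1, fun u hu => (rho0_eq_one_iff b u).mpr (hFW hu)⟩

/-- the trace of Frobenius on the two-torsion -/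
theorem trace_rho0_frob (h : ZCurve W) (b : Module.Basis (Fin 2) ℤ_[2] (TT (WQ W) 2)) {ℓ : ℕ}
    (hℓ : ℓ.Prime) (hgood : W.IsGoodPrimeFor ℓ) {A : ValuationSubring Qb} (hA : A.LiesOverPrime ℓ)
    {φ : GQ} (hφ : A.IsFrobeniusAt φ ℓ) :
    (rho0 b φ).trace = ((W.apOfModel ℓ : ℤ) : ZMod 2) := by
  have hΔ := h.neg.ne
  have hell := isElliptic_WQ hΔ
  have hℓ2 : ℓ ≠ 2 := by
    rintro rfl
    exact hgood h.two
  have h1 : LinearMap.trace ℤ_[2] _ (rr (WQ W) 2 φ) = (W.apOfModel ℓ : ℤ_[2]) :=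
    zRep_trace_frob hΔ h.irr hℓ hgood hℓ2 hA hφ
  have e1 : (rho0 b φ).trace = PadicInt.toZMod (mtx b (rr (WQ W) 2 φ)).trace := by
    rw [rho0_apply, Matrix.trace_fin_two, Matrix.trace_fin_two, _root_.map_add]
    rfl
  rw [e1, trace_mtx, h1, map_intCast]

/-- the residual system of eigenvalues of `W` -/
noncomputable def aW (W : WeierstrassCurve ℤ) (A : ValuationSubring ℂ) (D : ℕ) :
    Pr D → ResidueField A := fun ℓ => ((W.apOfModel ℓ : ℤ) : ResidueField A)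

/-- **Matching**: a system which agrees with `W` outside a set of primes with bounded Dirichlet
sum, and which comes from a newform, agrees with `W`. -/
theorem eq_aW (h : ZCurve W) (b : Module.Basis (Fin 2) ℤ_[2] (TT (WQ W) 2)) {D L : ℕ}
    (hD : D ≠ 0) (hND : NW W ∣ D) (hLD : L ∣ D) {A : ValuationSubring ℂ}
    (hA : (2 : ℂ) ∈ A.nonunits) (a : Pr D → ResidueField A) {T : Set ℕ} (hT : ZC.BddQ T)
    (ha : ∀ ℓ : Pr D, (ℓ : ℕ) ∉ T → ∀ A' : ValuationSubring Qb, A'.LiesOverPrime (ℓ : ℕ) →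
      ∀ φ : GQ, A'.IsFrobeniusAt φ ℓ → ∀ [CharP (ResidueField A) 2],
        a ℓ = ZMod.castHom (dvd_refl 2) (ResidueField A) (rho0 b φ).trace)
    (g : NF D L (LamA A a)) : a = aW W A D := by
  classical
  have hch := charP_residue_two hA
  have hΔ := h.neg.ne
  have h2D : 2 ∣ D := (two_dvd_NW h).trans hND
  obtain ⟨r, hr1, hr2, hr3, -⟩ := exists_resid hD hLD h2D hA a g
  have hT' : ZC.BddQ (T ∪ {q | q ∣ D}) := hT.union (ZC.bddQ_finite
    ((Finset.finite_toSet D.divisors).subset fun q hq =>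
      Finset.mem_coe.mpr (Nat.mem_divisors.mpr ⟨hq, hD⟩)))
  have key := ident r hr1 hr2 (rho0 b) (rho0_open h b) hT' (by
    intro ℓ hℓ hℓT A' hA' φ hφ
    rw [Set.mem_union, not_or] at hℓT
    rw [hr3 ⟨ℓ, hℓ, hℓT.2⟩ A' hA' φ hφ]
    exact ha ⟨ℓ, hℓ, hℓT.2⟩ hℓT.1 A' hA' φ hφ)
  funext ℓ
  obtain ⟨A', hA'⟩ := Fermat.Agent.H05.exists_liesOverPrime Qb ℓ.2.1
  obtain ⟨φ, hφ⟩ := Fermat.Agent.H05.exists_isFrobeniusAt ℓ.2.1 hA'
  have hgood : W.IsGoodPrimeFor (ℓ : ℕ) := fun h' =>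
    ℓ.2.2 (((dvd_NW_iff hΔ ℓ.2.1).mpr h').trans hND)
  rw [← hr3 ℓ A' hA' φ hφ, key φ, trace_rho0_frob h b ℓ.2.1 hgood hA' hφ, aW, map_intCast]

end curve

end Fermat.Agent.ZF
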