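import Mathlib
import Fermat.Agent.ZF.Match
import Fermat.Agent.Ell.ZComp
import Fermat.Agent.H29U.Count
import Fermat.Agent.H28S.Level
import Fermat.Agent.ZC.Match2

/-!
# PROGRAM Z: the number of newforms congruent to `W`
-/

set_option autoImplicit false
set_option linter.unusedSectionVars false
set_option linter.style.haveILetI false

namespace Fermat.Agent.ZF

open NumberField Fermat.Agent.Ell Fermat.Agent.Z34 Fermat.Agent.CC IsLocalRing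
  Fermat.Agent.H29Z Fermat.Agent.H24ES Fermat.Agent.H24H Fermat.Agent.H28S Fermat.Agent.H25.TR
open TC (Pr)
open AL (NF)
open scoped Matrix

variable {W : WeierstrassCurve ℤ}

lemma trace_zero_aux (a b c d x y l0 l1 : ZMod 2) (h1 : a - 1 = x * l0) (h2 : c = x * l1)
    (h3 : b = y * l0) (h4 : d - 1 = y * l1) (h5 : a * d - b * c = 1) : a + d = 0 := by
  have h0 : (2 : ZMod 2) = 0 := rfl
  have ha : a = 1 + x * l0 := by linear_combination h1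
  have hd : d = 1 + y * l1 := by linear_combination h4
  subst ha hd h2 h3
  linear_combination h5 + h0

lemma trace_zero_of_line {M : M2 (ZMod 2)} {l : Fin 2 → ZMod 2}
    (h : ∀ w : Fin 2 → ZMod 2, ∃ c : ZMod 2, M *ᵥ w - w = c • l) (hdet : M.det = 1) :
    M.trace = 0 := by
  obtain ⟨x, hx⟩ := h ![1, 0]
  obtain ⟨y, hy⟩ := h ![0, 1]
  have h00 := congrFun hx 0
  have h01 := congrFun hx 1
  have h10 := congrFun hy 0
  have h11 := congrFun hy 1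
  simp [Matrix.mulVec, dotProduct, Fin.sum_univ_two] at h00 h01 h10 h11
  rw [Matrix.det_fin_two] at hdet
  rw [Matrix.trace_fin_two]
  exact trace_zero_aux _ _ _ _ x y (l 0) (l 1) h00 h01 h10 h11 hdet

/-- inertia has trace zero modulo `2` -/
theorem inertia_trace (h : ZCurve W) (b : Module.Basis (Fin 2) ℤ_[2] (TT (WQ W) 2)) {ℓ : ℕ}
    (hℓ : ℓ.Prime) {A : ValuationSubring Qb} (hA : A.LiesOverPrime ℓ) {σ : GQ}
    (hσ : σ ∈ A.inertiaSubgroupIn ℚ) : (rho0 b σ).trace = 0 := by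
  have hΔ := h.neg.ne
  have hell := isElliptic_WQ hΔ
  by_cases hbad : (ℓ : ℤ) ∣ W.Δ
  · obtain ⟨φ, hφ⟩ := Fermat.Agent.H05.exists_isFrobeniusAt hℓ hA
    obtain ⟨l, u, hL⟩ := isLine_bad (f := PadicInt.toZMod (p := 2)) (b := b) hΔ h.irr hell hℓ hbad
      (h.ss ℓ hℓ hbad) hA hφ
    exact trace_zero_of_line (hL.inert σ hσ) (det_rho0 (rho0 b) σ)
  · have hℓ2 : ¬ ℓ ∣ 2 := by
      intro h2
      apply hbad
      rw [(Nat.prime_dvd_prime_iff_eq hℓ Nat.prime_two).mp h2]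
      exact h.two
    have h1 : rho0 b σ = 1 := by
      rw [rho0_eq_one_iff]
      intro P hP
      exact smul_eq_of_good hℓ hbad hA hσ hℓ2 hP
    rw [h1, Matrix.trace_one, Fintype.card_fin]
    rfl

/-- the trace of an element does not depend on the basis -/
theorem trace_rho0_basis (hell : (WQ W).IsElliptic)
    (b b' : Module.Basis (Fin 2) ℤ_[2] (TT (WQ W) 2)) (g : GQ) :
    (rho0 b g).trace = (rho0 b' g).trace := by
  rw [rho0_eq_mtx, rho0_eq_mtx, trace_mtx, trace_mtx]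

/-- an element of order three -/
theorem exists_trace_one (h : ZCurve W) (b : Module.Basis (Fin 2) ℤ_[2] (TT (WQ W) 2)) :
    ∃ g : GQ, (rho0 b g).trace = 1 := by
  have hell := isElliptic_WQ h.neg.ne
  obtain ⟨Y, b', hY⟩ := exists_GDat h one_ne_zero ∅ (by simp)
  refine ⟨Y.σ * Y.τ, ?_⟩
  rw [trace_rho0_basis hell b b', map_mul, ← hY.ρ0, ← hY.ρ0, Y.hσ, Y.hτ]
  decide

/-- **Counting newforms** -/
theorem countZ_of (h : ZCurve W) (b : Module.Basis (Fin 2) ℤ_[2] (TT (WQ W) 2))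
    {B : Finset ℕ} [PB B] [IB (-2 * (MW W : ℤ)) B] (hB : B.Nonempty) (h4 : ∀ q ∈ B, 4 ∣ q + 1)
    (hcop : (fB B).Coprime (8 * MW W)) {A : ValuationSubring ℂ} (hA : (2 : ℂ) ∈ A.nonunits)
    {D : ℕ} (hD : D ≠ 0) (hlev : H28S.lev (NW W) B ∣ D)
    (hℓ₁ : ∀ T : Set ℕ, ZC.BddQ T → ∃ ℓ₁ : Pr D, (ℓ₁ : ℕ) ∉ T ∧ ((ℓ₁ : ℕ) : ZMod D) = 1 ∧
      ∀ A' : ValuationSubring Qb, A'.LiesOverPrime (ℓ₁ : ℕ) → ∀ φ : GQ, A'.IsFrobeniusAt φ ℓ₁ →
        (rho0 b φ).trace = 1)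
    (hnew : ∀ L, L ∣ H28S.lev (NW W) B → ¬ NW W ∣ L → Nat.card (NF D L (LamA A (aW W A D))) = 0) :
    hW h * 2 ^ B.card ≤ Nat.card (NF D (H28S.lev (NW W) B) (LamA A (aW W A D))) := by
  have hell := isElliptic_WQ h.neg.ne
  have hN : 2 * MW W = NW W := two_mul_MW h
  have hNW := NW_ne_zero W
  haveI : NeZero (MW W) := ⟨fun h0 => hNW (by rw [← hN, h0, mul_zero])⟩
  haveI := charP_residue_two hA
  -- the cubic character
  obtain ⟨F', hF', hF''⟩ := rho0_open h b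
  have hKf : ∀ g, g ∈ (KW h).fixingSubgroup ↔ (rho0 b g = 1 ∨ (rho0 b g).trace = 1) := by
    intro g
    rw [← HH_eq h b]
    exact mem_HH_iff _ g
  obtain ⟨C⟩ := ZC.exists_cubChar_ker (KW h) (KW_complex h) (rho0 b) hKf F' hF''
    (exists_trace_one h b) (fun ℓ hℓ A' hA' σ hσ => inertia_trace h b hℓ hA' hσ)
  obtain ⟨e, -⟩ := exists_eK h
  have hS : NoS (2 * MW W) := by
    obtain ⟨r, hr, hr4, hrΔ⟩ := h.three
    refine noS_of_prime hr hr4 ?_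
    rw [hN]
    exact (dvd_NW_iff h.neg.ne hr).mpr hrΔ
  obtain ⟨ξ, R, hR⟩ := H29U.count e hB h4 hcop hS C.ψ C.ψ_pow C.ψ_ne
  have hlev' : H28S.lev (2 * MW W) B ∣ D := by rw [hN]; exact hlev
  have hdvd : ∀ ℓ : Pr D, ¬ ((ℓ : ℕ) : ℤ) ∣ 2 * (-2 * (MW W : ℤ)) * (fB B : ℕ) := by
    intro ℓ hℓ
    have h1 : ((ℓ : ℕ) : ℤ) ∣ ((2 * H28S.lev (2 * MW W) B : ℕ) : ℤ) := by
      have h2 : (2 * (-2 * (MW W : ℤ)) * (fB B : ℕ) : ℤ) = -((2 * H28S.lev (2 * MW W) B : ℕ) : ℤ) := by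
        rw [H28S.lev, ← fB_eq]
        push_cast
        ring
      rw [h2] at hℓ
      exact (dvd_neg.mp hℓ)
    rw [Int.natCast_dvd_natCast, ℓ.2.1.dvd_mul] at h1
    rcases h1 with h1 | h1
    · apply ℓ.2.2
      refine (h1.trans ?_).trans hlev'
      rw [H28S.lev, mul_assoc]
      exact dvd_mul_right 2 _
    · exact ℓ.2.2 (h1.trans hlev')
  have hsys : ∀ ℓ : Pr D, (ℓ : ℕ) ∉ C.T → ∀ A' : ValuationSubring Qb,
      A'.LiesOverPrime (ℓ : ℕ) → ∀ φ : GQ, A'.IsFrobeniusAt φ ℓ →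
        ZC.aL A R.X ℓ = ZMod.castHom (dvd_refl 2) (ResidueField A) (rho0 b φ).trace := by
    intro ℓ hℓT A' hA' φ hφ
    exact ZC.aL_eq_trace hKf C R hA ℓ.2.1 hℓT (hdvd ℓ) hA' hφ
  have hmatch : ∀ L : ℕ, L ∣ D → NF D L (LamA A (fun ℓ : Pr D => ZC.aL A R.X ℓ)) →
      (fun ℓ : Pr D => ZC.aL A R.X ℓ) = aW W A D := by
    intro L hL g
    refine eq_aW h b hD ?_ hL hA _ C.bdd ?_ g
    · rw [← hN]
      exact (Dvd.intro _ rfl).trans hlev'
    · intro ℓ hℓT A' hA' φ hφ _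
      exact hsys ℓ hℓT A' hA' φ hφ
  obtain ⟨ℓ₁, hℓ₁T, hℓ₁D, hℓ₁t⟩ := hℓ₁ C.T C.bdd
  have hmain := hR A hA hD hlev' ℓ₁ hℓ₁D (by
      obtain ⟨A', hA'⟩ := Fermat.Agent.H05.exists_liesOverPrime Qb ℓ₁.2.1
      obtain ⟨φ, hφ⟩ := Fermat.Agent.H05.exists_isFrobeniusAt ℓ₁.2.1 hA'
      rw [hsys ℓ₁ hℓ₁T A' hA' φ hφ, hℓ₁t A' hA' φ hφ, map_one]
      exact one_ne_zero) (by
      intro L hL hNL
      rw [hN] at hL hNL
      by_contra hne
      have hne' : Nonempty (NF D L (LamA A (fun ℓ : Pr D => ZC.aL A R.X ℓ))) :=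
        (Nat.card_ne_zero.mp hne).1
      have h2 := hmatch L (hL.trans hlev) hne'.some
      rw [h2] at hne
      exact hne (hnew L hL hNL))
  rw [hN] at hmain
  have hpos : 0 < Nat.card (NF D (H28S.lev (NW W) B) (LamA A (fun ℓ : Pr D => ZC.aL A R.X ℓ))) :=
    lt_of_lt_of_le (by positivity) hmain
  have hne' : Nonempty (NF D (H28S.lev (NW W) B) (LamA A (fun ℓ : Pr D => ZC.aL A R.X ℓ))) :=
    (Nat.card_ne_zero.mp hpos.ne').1
  rw [hmatch _ hlev hne'.some, mul_comm] at hmain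
  exact hmain

end Fermat.Agent.ZF
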