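import Mathlib
import Fermat.Agent.ZF.Field
import Fermat.Agent.H28S.Tower

/-!
# The level of PROGRAM Z
-/

set_option autoImplicit false

namespace Fermat.Agent.ZF

open Fermat.Agent.Ell Fermat.Agent.Z34

variable {W : WeierstrassCurve ℤ}

/-- the natural numbers attached to a finite set of primes -/
def QN (Q : Finset Nat.Primes) : Finset ℕ :=
  Q.map (⟨fun q : Nat.Primes => (q : ℕ), Nat.Primes.coe_nat_injective⟩ : Nat.Primes ↪ ℕ)

theorem mem_QN {Q : Finset Nat.Primes} {n : ℕ} : n ∈ QN Q ↔ ∃ q ∈ Q, (q : ℕ) = n := by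
  rw [QN, Finset.mem_map]
  rfl

theorem card_QN (Q : Finset Nat.Primes) : (QN Q).card = Q.card := Finset.card_map _

theorem coe_mem_QN {Q : Finset Nat.Primes} {q : Nat.Primes} : (q : ℕ) ∈ QN Q ↔ q ∈ Q := by
  rw [mem_QN]
  constructor
  · rintro ⟨q', hq', h⟩
    rwa [← Nat.Primes.coe_nat_injective h]
  · intro h
    exact ⟨q, h, rfl⟩

theorem prime_of_mem_QN {Q : Finset Nat.Primes} {n : ℕ} (h : n ∈ QN Q) : n.Prime := by
  obtain ⟨q, -, rfl⟩ := mem_QN.mp h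
  exact q.2

/-- the level -/
noncomputable def lvl (W : WeierstrassCurve ℤ) (Q : Finset Nat.Primes) : ℕ :=
  H28S.lev (NW W) (QN Q)

theorem lvl_eq (W : WeierstrassCurve ℤ) (Q : Finset Nat.Primes) :
    lvl W Q = NW W * ∏ q ∈ Q, (q : ℕ) := by
  rw [lvl, H28S.lev, QN, Finset.prod_map]
  rfl

theorem NW_dvd_lvl (W : WeierstrassCurve ℤ) (Q : Finset Nat.Primes) : NW W ∣ lvl W Q := by
  rw [lvl_eq]
  exact dvd_mul_right _ _

theorem lvl_ne_zero (W : WeierstrassCurve ℤ) (Q : Finset Nat.Primes) : lvl W Q ≠ 0 := by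
  rw [lvl_eq]
  exact mul_ne_zero (NW_ne_zero W) (Finset.prod_ne_zero_iff.mpr fun q _ => q.2.ne_zero)

theorem dvd_lvl_iff (hΔ : W.Δ ≠ 0) {Q : Finset Nat.Primes} {q : ℕ} (hq : q.Prime) :
    q ∣ lvl W Q ↔ ((q : ℤ) ∣ W.Δ ∨ q ∈ QN Q) := by
  rw [lvl_eq, hq.dvd_mul, dvd_NW_iff hΔ hq, (Nat.prime_iff.mp hq).dvd_finsetProd_iff]
  refine or_congr Iff.rfl ?_
  rw [mem_QN]
  constructor
  · rintro ⟨p, hp, hqp⟩
    exact ⟨p, hp, ((Nat.prime_dvd_prime_iff_eq hq p.2).mp hqp).symm⟩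
  · rintro ⟨p, hp, rfl⟩
    exact ⟨p, hp, dvd_rfl⟩

theorem lvl_squarefree (hΔ : W.Δ ≠ 0) {Q : Finset Nat.Primes}
    (hQ : ∀ q ∈ Q, W.IsGoodPrimeFor (q : ℕ)) : Squarefree (lvl W Q) := by
  rw [lvl_eq, Nat.squarefree_mul_iff]
  refine ⟨?_, NW_squarefree W, ?_⟩
  · rw [Nat.coprime_prod_right_iff]
    intro q hq
    rw [Nat.coprime_comm, Nat.Prime.coprime_iff_not_dvd q.2]
    intro h
    exact hQ q hq ((dvd_NW_iff hΔ q.2).mp h)
  · refine Finset.squarefree_prod_of_pairwise_isCoprime ?_ fun q _ => q.2.prime.squarefree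
    intro q _ q' _ hne
    exact Nat.coprime_iff_isRelPrime.mp ((Nat.coprime_primes q.2 q'.2).mpr fun h =>
      hne (Nat.Primes.coe_nat_injective h))

end Fermat.Agent.ZF
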