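import Mathlib
import Fermat.Agent.H27.NFRing
import Fermat.Agent.AL.Count
import Fermat.Agent.H23.EigenChar

/-!
# Pigeonhole in a discrete valuation ring; common coefficient rings
-/

set_option autoImplicit false
set_option linter.unusedSectionVars false

namespace Fermat.Agent.ZF

open IsLocalRing CongruenceSubgroup ModularFormClass
open Fermat.Agent.AL (NF nfSys)
open Fermat.Agent.TC (Pr)

section Pigeon

variable {O : Type*} [CommRing O] [IsDomain O] [IsDiscreteValuationRing O]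

theorem pigeonhole {a : O} {ι : Type*} (t : Finset ι) (x : ι → O) {s m : ℕ}
    (hm : t.card * s ≤ m) (hne : t.Nonempty) (hx : a ^ m ∣ ∏ i ∈ t, x i) :
    ∃ i ∈ t, a ^ s ∣ x i := by
  classical
  by_contra hcon
  push Not at hcon
  obtain ⟨ϖ, hϖ⟩ := IsDiscreteValuationRing.exists_irreducible O
  have h1 : ∀ i ∈ t, x i * ϖ ∣ a ^ s := by
    intro i hi
    rcases ValuationRing.dvd_total (x i) (a ^ s) with h | h
    · obtain ⟨y, hy⟩ := h
      rw [hy]
      apply mul_dvd_mul_left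
      by_contra hn
      have hu : IsUnit y := by
        by_contra hu
        apply hn
        have h2 : y ∈ maximalIdeal O := (mem_maximalIdeal y).mpr hu
        rw [hϖ.maximalIdeal_eq, Ideal.mem_span_singleton] at h2
        exact h2
      apply hcon i hi
      rw [hy]
      exact (hu.dvd_mul_right.mp dvd_rfl : x i * y ∣ x i)
    · exact absurd h (hcon i hi)
  have hx0 : ∏ i ∈ t, x i ≠ 0 := by
    rw [Finset.prod_ne_zero_iff]
    intro i hi h0
    exact hcon i hi (h0 ▸ dvd_zero _)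
  have h2 : ∏ i ∈ t, (x i * ϖ) ∣ a ^ (t.card * s) := by
    have h3 : ∏ i ∈ t, (x i * ϖ) ∣ ∏ _i ∈ t, a ^ s := Finset.prod_dvd_prod_of_dvd _ _ h1
    rwa [Finset.prod_const, ← pow_mul, mul_comm s] at h3
  rw [Finset.prod_mul_distrib, Finset.prod_const] at h2
  have h4 : (∏ i ∈ t, x i) * ϖ ∣ ∏ i ∈ t, x i := by
    refine (mul_dvd_mul_left _ (dvd_pow_self ϖ (Finset.card_ne_zero.mpr hne))).trans ?_
    exact (h2.trans (pow_dvd_pow a hm)).trans hx
  obtain ⟨c, hc⟩ := h4
  apply hϖ.not_isUnit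
  refine IsUnit.of_mul_eq_one c ?_
  apply mul_left_cancel₀ hx0
  rw [mul_one, ← mul_assoc]
  exact hc.symm

end Pigeon

/-- **Common coefficient rings** for finitely many newforms. -/
theorem exists_common {D L : ℕ} [NeZero L] {Lam : Set (Pr D → ℂ)} (S : Set ℕ)
    (hfin : Finite (NF D L Lam)) {A : ValuationSubring ℂ} (hA : (2 : ℂ) ∈ A.nonunits) :
    ∃ (O : Type) (_ : CommRing O) (_ : IsDomain O) (_ : IsDiscreteValuationRing O)
      (_ : IsAdicComplete (maximalIdeal O) O) (_ : Finite (ResidueField O)) (_ : CharZero O)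
      (R : Subring ℂ) (f : R →+* O), Function.Injective f ∧
        (∀ x : R, (x : ℂ) ∈ A.nonunits → f x ∈ maximalIdeal O) ∧
        (∃ w : O, w ^ 2 + w + 1 = 0) ∧
        ∀ (g : NF D L Lam) (t : CuspForm.heckeAlgebra L 2 S),
          H23.eigenCharC g.2.1.1 S t ∈ R := by
  classical
  haveI hft := S22.result L 2 S
  obtain ⟨T, hT⟩ := hft.1
  obtain ⟨ζ, hζ⟩ : ∃ ζ : ℂ, IsPrimitiveRoot ζ 3 :=
    ⟨_, Complex.isPrimitiveRoot_exp 3 (by norm_num)⟩
  set s : Set ℂ := {ζ} ∪ ⋃ g : NF D L Lam, (H23.eigenCharC g.2.1.1 S) '' (T : Set _) with hs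
  have hsfin : s.Finite := by
    refine (Set.finite_singleton ζ).union (Set.finite_iUnion fun g => ?_)
    exact (Finset.finite_toSet T).image _
  have hsint : ∀ x ∈ s, IsIntegral ℤ x := by
    rintro x (hx | hx)
    · rw [Set.mem_singleton_iff] at hx
      rw [hx]
      exact hζ.isIntegral (by norm_num)
    · obtain ⟨g, hg⟩ := Set.mem_iUnion.mp hx
      obtain ⟨t, -, rfl⟩ := hg
      exact H23.isIntegral_eigenCharC g.2.1.1 S t
  obtain ⟨O, i1, i2, i3, i4, i5, i6, R, f, hsR, hf, hfm⟩ :=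
    Z34.exists_coeff_ring Nat.prime_two (by exact_mod_cast hA) s hsfin hsint
  refine ⟨O, i1, i2, i3, i4, i5, i6, R, f, hf, hfm, ?_, ?_⟩
  · have hζR : ζ ∈ R := hsR (Or.inl rfl)
    refine ⟨f ⟨ζ, hζR⟩, ?_⟩
    rw [← map_pow, ← map_add, ← map_one f, ← map_add, ← map_zero f]
    congr 1
    apply Subtype.ext
    change ζ ^ 2 + ζ + 1 = 0
    have h1 := hζ.pow_eq_one
    have h2 : ζ ≠ 1 := hζ.ne_one (by norm_num)
    have h3 : (ζ - 1) * (ζ ^ 2 + ζ + 1) = 0 := by linear_combination h1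
    exact (mul_eq_zero.mp h3).resolve_left (sub_ne_zero.mpr h2)
  · intro g t
    have ht : t ∈ Submodule.span ℤ (T : Set (CuspForm.heckeAlgebra L 2 S)) := by
      rw [hT]; trivial
    refine Submodule.span_induction ?_ ?_ ?_ ?_ ht
    · intro x hx
      exact hsR (Or.inr (Set.mem_iUnion.mpr ⟨g, ⟨x, hx, rfl⟩⟩))
    · rw [map_zero]; exact R.zero_mem
    · intro x y _ _ hx hy
      rw [map_add]; exact R.add_mem hx hy
    · intro c x _ hx
      rw [zsmul_eq_mul, map_mul, map_intCast]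
      exact R.mul_mem (intCast_mem R c) hx

end Fermat.Agent.ZF
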