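import Mathlib
import Fermat.Agent.ZF.Lvl
import Fermat.Agent.ZF.Pigeon
import Fermat.Agent.ZF.Match
import Fermat.Agent.H27.NFOdd
import Fermat.Agent.H27.NFRep
import Fermat.Agent.Ell.ZComp

/-!
# Newforms give components
-/

set_option autoImplicit false
set_option linter.unusedSectionVars false
set_option linter.style.haveILetI false

namespace Fermat.Agent.ZF

open IsLocalRing CongruenceSubgroup ModularFormClass
open Fermat.Agent.Ell Fermat.Agent.Z34 Fermat.Agent.CC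
open Fermat.Agent.AL (NF nfSys)
open Fermat.Agent.TC (Pr)
open Fermat.Agent.H24H (LamA)

instance (W : WeierstrassCurve ℤ) (Q : Finset Nat.Primes) : NeZero (lvl W Q) :=
  ⟨lvl_ne_zero W Q⟩

section

variable {O : Type} [CommRing O] [IsDomain O] [IsDiscreteValuationRing O]
  [IsAdicComplete (maximalIdeal O) O] [Finite (ResidueField O)] [CharZero O]

/-- the character of the Hecke algebra with values in `O` -/
noncomputable def nfPi {N : ℕ} [NeZero N] {g : CuspForm (Gamma0 N) 2}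
    (hg : g.IsNormalizedEigenform) (S : Set ℕ) {R : Subring ℂ}
    (hR : ∀ t, H23.eigenCharC hg S t ∈ R) (f : R →+* O) : CuspForm.heckeAlgebra N 2 S →+* O :=
  f.comp ((H23.eigenCharC hg S).codRestrict R hR)

/-- continuity with finite level fields -/
def FCont (ρ : GQ →* M2 O) : Prop := ∀ n : ℕ, ∃ F : IntermediateField ℚ Qb,
  FiniteDimensional ℚ F ∧ ∀ u ∈ F.fixingSubgroup, InM (maximalIdeal O ^ n) (ρ u - 1)

/-- Frobenius traces and determinants -/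
def FFrob {N : ℕ} [NeZero N] {S : Finset ℕ} (π : CuspForm.heckeAlgebra N 2 (↑S : Set ℕ) →+* O)
    (ρ : GQ →* M2 O) : Prop :=
  ∀ (ℓ : ℕ) (hℓ : ℓ.Prime) (hℓM : ¬ ℓ ∣ N) (hℓS : ℓ ∉ (↑S : Set ℕ)),
    ∀ A : ValuationSubring Qb, A.LiesOverPrime ℓ → ∀ φ : GQ, A.IsFrobeniusAt φ ℓ →
      (ρ φ).trace = π (CuspForm.heckeAlgebra.T hℓ hℓM hℓS) ∧ (ρ φ).det = ℓ

/-- reduction of a representation modulo the maximal ideal -/
noncomputable def redO (ρ : GQ →* M2 O) : GQ →* M2 (ResidueField O) :=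
  (RingHom.mapMatrix (residue O)).toMonoidHom.comp ρ

theorem redO_trace (ρ : GQ →* M2 O) (σ : GQ) : (redO ρ σ).trace = residue O (ρ σ).trace := by
  change ((ρ σ).map (residue O)).trace = _
  rw [Matrix.trace_fin_two, Matrix.trace_fin_two, map_add]
  rfl

theorem redO_det (ρ : GQ →* M2 O) (σ : GQ) : (redO ρ σ).det = residue O (ρ σ).det :=
  (RingHom.map_det _ _).symm

variable {W : WeierstrassCurve ℤ}

/-- the residual traces of the representation of a newform -/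
theorem nf_res (h : ZCurve W) {m : ℕ} {Q : Finset Nat.Primes} {Y : GDat}
    {b : Module.Basis (Fin 2) ℤ_[2] (TT (WQ W) 2)} (hY : IsZ W m Q Y b)
    {A : ValuationSubring ℂ} (h2O : (2 : O) ∈ maximalIdeal O) {R : Subring ℂ} (f : R →+* O)
    (hfm : ∀ x : R, (x : ℂ) ∈ A.nonunits → f x ∈ maximalIdeal O)
    {S : Finset ℕ} (hS : ∀ q : ℕ, q.Prime → (q ∈ S ↔ q ∣ lvl W Q))
    (g : NF (lvl W Q) (lvl W Q) (LamA A (aW W A (lvl W Q))))
    (hR : ∀ t, H23.eigenCharC g.2.1.1 (↑S : Set ℕ) t ∈ R) (ρ : GQ →* M2 O) (hcont : FCont ρ)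
    (hfrob : FFrob (nfPi g.2.1.1 (↑S : Set ℕ) hR f) ρ)
    (hdet : ∀ σ, (ρ σ).det = cyc (p := 2) (by exact_mod_cast h2O) σ) (σ : GQ) :
    (ρ σ).trace - (((Y.ρ0 σ).trace.val : ℕ) : O) ∈ maximalIdeal O := by
  have hΔ := h.neg.ne
  haveI : CharP (ResidueField O) 2 := by
    rw [CharP.charP_iff_prime_eq_zero Nat.prime_two]
    rw [← map_natCast (residue O), residue_eq_zero_iff]
    exact_mod_cast h2O
  have hfin : {ℓ : ℕ | ℓ ∣ lvl W Q}.Finite :=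
    Set.Finite.subset (Finset.finite_toSet (Nat.divisors (lvl W Q)))
      fun ℓ hℓ => Finset.mem_coe.mpr (Nat.mem_divisors.mpr ⟨hℓ, lvl_ne_zero W Q⟩)
  have key := ident (redO ρ) ?_ ?_ (rho0 b) (rho0_open h b) (ZC.bddQ_finite hfin) ?_ σ
  · rw [redO_trace] at key
    rw [← residue_eq_zero_iff, map_sub, key, map_natCast, hY.ρ0, sub_eq_zero]
    rw [ZMod.castHom_apply, ZMod.cast_eq_val]
  · obtain ⟨F, hF, hF1⟩ := hcont 1
    refine ⟨F, hF, fun u hu => ?_⟩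
    have h1 := hF1 u hu
    rw [pow_one] at h1
    ext i j
    have h2 := h1 i j
    rw [← residue_eq_zero_iff, Matrix.sub_apply, map_sub, sub_eq_zero] at h2
    change residue O (ρ u i j) = _
    rw [h2, Matrix.one_apply, Matrix.one_apply]
    split_ifs <;> simp
  · intro σ
    rw [redO_det, hdet, ← sub_eq_zero, ← map_one (residue O), ← map_sub, residue_eq_zero_iff]
    exact cyc_sub_one_mem h2O σ
  · intro ℓ hℓ hℓT A' hA' φ hφ
    have hℓD : ¬ ℓ ∣ lvl W Q := hℓT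
    have hℓS : ℓ ∉ (↑S : Set ℕ) := fun hh => hℓD ((hS ℓ hℓ).mp (Finset.mem_coe.mp hh))
    have hgood : W.IsGoodPrimeFor ℓ := fun h' => hℓD ((dvd_lvl_iff hΔ hℓ).mpr (Or.inl h'))
    rw [redO_trace, (hfrob ℓ hℓ hℓD hℓS A' hA' φ hφ).1, trace_rho0_frob h b hℓ hgood hA' hφ,
      map_intCast, ← sub_eq_zero, ← map_intCast (residue O), ← map_sub, residue_eq_zero_iff]
    obtain ⟨h3, h4⟩ := g.2.2 ⟨ℓ, hℓ, hℓD⟩
    have hx : H23.eigenCharC g.2.1.1 (↑S : Set ℕ) (CuspForm.heckeAlgebra.T hℓ hℓD hℓS) =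
        qCoeff g.1 ℓ := H23.coe_eigenChar_T g.2.1.1 hℓ hℓD hℓS
    have h5 : qCoeff g.1 ℓ - ((W.apOfModel ℓ : ℤ) : ℂ) ∈ A.nonunits := by
      have h6 : residue A (⟨nfSys (lvl W Q) g.1 ⟨ℓ, hℓ, hℓD⟩, h3⟩ - ((W.apOfModel ℓ : ℤ) : A)) = 0 := by
        rw [map_sub, h4, map_intCast, aW, sub_self]
      rw [residue_eq_zero_iff, ← ValuationSubring.coe_mem_nonunits_iff] at h6
      exact h6
    have h7 := hfm (⟨_, hR (CuspForm.heckeAlgebra.T hℓ hℓD hℓS)⟩ - ((W.apOfModel ℓ : ℤ) : R)) (by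
      change H23.eigenCharC g.2.1.1 (↑S : Set ℕ) (CuspForm.heckeAlgebra.T hℓ hℓD hℓS) -
        (((W.apOfModel ℓ : ℤ) : R) : ℂ) ∈ A.nonunits
      rw [hx]
      exact h5)
    rw [map_sub, map_intCast] at h7
    exact h7

theorem mem_Sg_iff (hΔ : W.Δ ≠ 0) {m : ℕ} {Q : Finset Nat.Primes} {Y : GDat}
    {b : Module.Basis (Fin 2) ℤ_[2] (TT (WQ W) 2)} (hY : IsZ W m Q Y b) (q : Nat.Primes) :
    q ∈ Y.Sg ↔ (q : ℕ) ∣ lvl W Q := by
  rw [hY.Sg, Finset.mem_union, mem_bad hΔ, dvd_lvl_iff hΔ q.2, coe_mem_QN]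

/-- the prime `2` -/
def p2 : Nat.Primes := ⟨2, Nat.prime_two⟩

/-- **Newforms give components.** -/
theorem exists_comp_nf (h : ZCurve W) {m : ℕ} {Q : Finset Nat.Primes} {Y : GDat}
    {b : Module.Basis (Fin 2) ℤ_[2] (TT (WQ W) 2)} (hY : IsZ W m Q Y b)
    {A : ValuationSubring ℂ} (h2O : (2 : O) ∈ maximalIdeal O) {R : Subring ℂ} (f : R →+* O)
    (hf : Function.Injective f)
    (hfm : ∀ x : R, (x : ℂ) ∈ A.nonunits → f x ∈ maximalIdeal O)
    {S : Finset ℕ} (hS : ∀ q : ℕ, q.Prime → (q ∈ S ↔ q ∣ lvl W Q))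
    (g : NF (lvl W Q) (lvl W Q) (LamA A (aW W A (lvl W Q))))
    (hR : ∀ t, H23.eigenCharC g.2.1.1 (↑S : Set ℕ) t ∈ R)
    (hline2 : ∀ ρ : GQ →* M2 O, FCont ρ → FFrob (nfPi g.2.1.1 (↑S : Set ℕ) hR f) ρ →
      (∀ σ, (ρ σ).det = cyc (p := 2) (by exact_mod_cast h2O) σ) →
      (∀ σ, (ρ σ).trace - (((Y.ρ0 σ).trace.val : ℕ) : O) ∈ maximalIdeal O) →
      ((ρ Y.σ).trace = 2 ∧ (ρ Y.σ).det = 1) → ∃ l u, IsLine (Y.A p2) (Y.φ p2) ρ l u) :
    ∃ C : Comp Y.toDat (fun σ => cyc (p := 2) (by exact_mod_cast h2O) σ) O,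
      FFrob (nfPi g.2.1.1 (↑S : Set ℕ) hR f) C.ρ := by
  have hΔ := h.neg.ne
  have h2N : 2 ∣ lvl W Q := (two_dvd_NW h).trans (NW_dvd_lvl W Q)
  have h2S : 2 ∈ S := (hS 2 Nat.prime_two).mpr h2N
  have hsq : Squarefree (lvl W Q) := lvl_squarefree hΔ hY.good
  have hpi0 : ∀ t, H23.eigenCharC g.2.1.1 (↑S : Set ℕ) t ≠ 0 →
      nfPi g.2.1.1 (↑S : Set ℕ) hR f t ≠ 0 := by
    intro t ht h0
    apply ht
    have h1 : (H23.eigenCharC g.2.1.1 (↑S : Set ℕ)).codRestrict R hR t = 0 := by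
      apply hf
      rw [map_zero]
      exact h0
    exact congrArg (Subtype.val (p := (· ∈ R))) h1
  obtain ⟨ρ, hcont, hfrob, hunr, hodd⟩ := exists_nfRep g.2.1 h2S
    (fun q hq hqN => (hS q hq).mpr hqN) h2O (H23.eigenCharC g.2.1.1 (↑S : Set ℕ))
    (fun ℓ hℓ hℓN hℓS => H23.coe_eigenChar_T g.2.1.1 hℓ hℓN hℓS)
    (nfPi g.2.1.1 (↑S : Set ℕ) hR f) hpi0
  have hdet : ∀ σ, (ρ σ).det = cyc (p := 2) (by exact_mod_cast h2O) σ := by
    refine det_eq_cyc (p := 2) (by exact_mod_cast h2O) ρ hcont (S ∪ (lvl W Q).primeFactors)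
      (Finset.mem_union_left _ h2S) ?_
    intro ℓ hℓ hℓS A' hA' φ hφ
    have hℓD : ¬ ℓ ∣ lvl W Q := fun hh => hℓS (Finset.mem_union_left _ ((hS ℓ hℓ).mpr hh))
    exact (hfrob ℓ hℓ hℓD (fun hh => hℓS (Finset.mem_union_left _ (Finset.mem_coe.mp hh)))
      A' hA' φ hφ).2
  have hres := nf_res h hY h2O f hfm hS g hR ρ hcont hfrob hdet
  have hmap : ∀ n : ℕ, (maximalIdeal O).map (algebraMap O O) ^ n = maximalIdeal O ^ n := by
    intro n
    rw [Algebra.algebraMap_self, Ideal.map_id]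
  suffices hex : ∃ C : Comp Y.toDat (fun σ => cyc (p := 2) (by exact_mod_cast h2O) σ) O,
      C.ρ = ρ by
    obtain ⟨C, hC⟩ := hex
    refine ⟨C, ?_⟩
    rw [hC]
    exact hfrob
  refine Y.exists_comp (χ := fun σ => cyc (p := 2) (by exact_mod_cast h2O) σ) ρ
    (fun σ => by rw [Algebra.algebraMap_self]; exact hdet σ) hres ?_ ?_ ?_
  · intro n
    refine ⟨congSub ρ (maximalIdeal O ^ n), levS_isOpen ?_ ?_, fun u hu => ?_⟩
    · obtain ⟨F, hF, hF1⟩ := hcont n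
      exact ⟨F, hF, hF1⟩
    · intro q hq A' hA' σ hσ
      rw [mem_Sg_iff hΔ hY] at hq
      have hq2 : (q : ℕ) ≠ 2 := by
        intro h2
        apply hq
        rw [h2]
        exact h2N
      rw [mem_congSub, hunr q q.2 hq hq2 A' hA' σ hσ, sub_self]
      intro i j
      exact Ideal.zero_mem _
    · rw [hmap]
      exact hu
  · intro x hx
    apply IsHausdorff.haus (inferInstance : IsHausdorff (maximalIdeal O) O)
    intro n
    rw [SModEq.zero, smul_eq_mul, Ideal.mul_top, ← hmap]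
    exact hx n
  · intro p hp
    by_cases h2 : p = p2
    · subst h2
      refine hline2 ρ hcont hfrob hdet hres ?_
      have hv0N : (Y.v0 : ℕ) ∣ lvl W Q := (mem_Sg_iff hΔ hY Y.v0).mp Y.v0_mem
      have hpp : ¬ (Y.v0 : ℕ) ^ 2 ∣ lvl W Q := by
        intro h'
        rw [pow_two] at h'
        exact Y.v0.2.one_lt.ne' (Nat.isUnit_iff.mp (hsq _ h'))
      exact (hodd Y.v0 Y.v0.2 hY.v0_ne hv0N hpp (Y.A Y.v0) (Y.hA Y.v0)).1 Y.σ Y.σ_mem
    · have hp2 : (p : ℕ) ≠ 2 := fun h' => h2 (Nat.Primes.coe_nat_injective h')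
      have hpN : (p : ℕ) ∣ lvl W Q := (mem_Sg_iff hΔ hY p).mp hp
      have hpp : ¬ (p : ℕ) ^ 2 ∣ lvl W Q := by
        intro h'
        rw [pow_two] at h'
        exact p.2.one_lt.ne' (Nat.isUnit_iff.mp (hsq _ h'))
      obtain ⟨h3, h4⟩ := hodd p p.2 hp2 hpN hpp (Y.A p) (Y.hA p)
      obtain ⟨h5, h6⟩ := h4 (Y.φ p) (Y.hφ p)
      refine exists_isLine_odd Nat.prime_two (by exact_mod_cast h2O) ρ ?_ p.2 hp2 (Y.hA p)
        (Y.hφ p) h3 h5 h6
      intro n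
      haveI := H51.isGalois_Qbar
      obtain ⟨F, hF, hF1⟩ := hcont n
      exact ⟨F.fixingSubgroup, IntermediateField.fixingSubgroup_isOpen F, hF1⟩

end

end Fermat.Agent.ZF
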