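import Mathlib
import Fermat.Agent.ZF.NfComp
import Fermat.Agent.ZF.Count
import Fermat.Agent.H27.Z4Main

/-!
# PROGRAM Z: a newform congruent to `W` modulo a high power of `2`
-/

set_option autoImplicit false
set_option linter.unusedSectionVars false
set_option linter.style.haveILetI false

namespace Fermat.Agent.ZF

open IsLocalRing CongruenceSubgroup ModularFormClass
open Fermat.Agent.Ell Fermat.Agent.Z34 Fermat.Agent.CC
open Fermat.Agent.AL (NF nfSys)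
open Fermat.Agent.TC (Pr)
open Fermat.Agent.H24H (LamA)

/-- **LGC2**: the line at the prime `2`. -/
def Line2 : Prop := ∀ {N : ℕ} [NeZero N] (_h2N : 2 ∣ N) (_hsq : Squarefree N)
    {g : CuspForm (Gamma0 N) 2} (hg : g.IsNewform) {S : Finset ℕ}
    (_hS : ∀ q : ℕ, q.Prime → (q ∈ S ↔ q ∣ N))
    {O : Type} [CommRing O] [IsDomain O] [IsDiscreteValuationRing O]
    [IsAdicComplete (maximalIdeal O) O] [Finite (ResidueField O)] [CharZero O]
    (h2O : (2 : O) ∈ maximalIdeal O) {R : Subring ℂ} (f : R →+* O)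
    (_hf : Function.Injective f) (hR : ∀ t, H23.eigenCharC hg.1 (↑S : Set ℕ) t ∈ R)
    (ρ : GQ →* M2 O) (_hcont : FCont ρ) (_hfrob : FFrob (nfPi hg.1 (↑S : Set ℕ) hR f) ρ)
    (_hdet : ∀ σ, (ρ σ).det = cyc (p := 2) (by exact_mod_cast h2O) σ)
    (ρ0 : GQ →* M2 (ZMod 2))
    (_hres : ∀ σ, (ρ σ).trace - (((ρ0 σ).trace.val : ℕ) : O) ∈ maximalIdeal O)
    (_hσ : ∃ σ, ρ0 σ = !![1, 1; 0, 1] ∧ (ρ σ).trace = 2 ∧ (ρ σ).det = 1) (_hτ : ∃ τ, ρ0 τ = !![0, 1; 1, 0])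
    {A : ValuationSubring Qb} (_hA : A.LiesOverPrime 2)
    (_hram : ∃ s ∈ A.inertiaSubgroupIn ℚ, ρ0 s ≠ 1) {φ : GQ} (_hφ : A.IsFrobeniusAt φ 2),
    ∃ l u, IsLine A φ ρ l u

/-- a newform of level `lvl W Q` which is congruent to `W` modulo `2 ^ s` -/
def CongNF (W : WeierstrassCurve ℤ) (Q : Finset Nat.Primes) (s : ℕ) : Prop :=
  ∃ (g : CuspForm (Gamma0 (lvl W Q)) 2), g.IsNewform ∧
    ∃ (O : Type) (_ : CommRing O) (_ : IsDomain O) (_ : IsDiscreteValuationRing O)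
      (_ : IsAdicComplete (maximalIdeal O) O) (_ : Finite (ResidueField O)) (_ : CharZero O)
      (R : Subring ℂ) (f : R →+* O), Function.Injective f ∧ (2 : O) ∈ maximalIdeal O ∧
      ∀ ℓ : ℕ, ℓ.Prime → ¬ ℓ ∣ lvl W Q → ∃ x : R, (x : ℂ) = qCoeff g ℓ ∧
        (2 : O) ^ s ∣ f x - ((W.apOfModel ℓ : ℤ) : O)

theorem trace_rr_frob {W : WeierstrassCurve ℤ} (h : ZCurve W) {ℓ : ℕ}
    (hℓ : ℓ.Prime) (hgood : W.IsGoodPrimeFor ℓ) {A : ValuationSubring Qb} (hA : A.LiesOverPrime ℓ)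
    {φ : GQ} (hφ : A.IsFrobeniusAt φ ℓ) :
    LinearMap.trace ℤ_[2] _ (rr (WQ W) 2 φ) = (W.apOfModel ℓ : ℤ_[2]) := by
  have hΔ := h.neg.ne
  have hell := isElliptic_WQ hΔ
  have hℓ2 : ℓ ≠ 2 := by
    rintro rfl
    exact hgood h.two
  exact zRep_trace_frob hΔ h.irr hℓ hgood hℓ2 hA hφ

open Classical in
/-- **The congruence.** -/
theorem congNF_of (hL2 : Line2) {W : WeierstrassCurve ℤ} (h : ZCurve W) {A : ValuationSubring ℂ}
    (hA : (2 : ℂ) ∈ A.nonunits) {B m s : ℕ} {Q : Finset Nat.Primes} (hQB : Q.card ≤ B)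
    (hQ : ∀ q ∈ Q, CTy W m q) (hm : m ≠ 0) (hms : hW h * 2 ^ B * s ≤ m)
    (hSel : ∀ (Y : GDat) (b : Module.Basis (Fin 2) ℤ_[2] (TT (WQ W) 2)), IsZ W m Q Y b →
      Sel0 Y.toDat)
    (hcount : hW h * 2 ^ Q.card ≤
      Nat.card (NF (lvl W Q) (lvl W Q) (LamA A (aW W A (lvl W Q))))) : CongNF W Q s := by
  have hΔ := h.neg.ne
  obtain ⟨Y, b, hY⟩ := exists_GDat h hm Q hQ
  set D := lvl W Q with hD
  have hD0 : D ≠ 0 := lvl_ne_zero W Q
  haveI hfin : Finite (NF D D (LamA A (aW W A D))) := AL.finite_NF hD0 dvd_rfl _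
  haveI : Fintype (NF D D (LamA A (aW W A D))) := Fintype.ofFinite _
  -- a subset with the right number of elements
  rw [Nat.card_eq_fintype_card] at hcount
  obtain ⟨t, -, htcard⟩ : ∃ t ⊆ (Finset.univ : Finset (NF D D (LamA A (aW W A D)))),
      t.card = hW h * 2 ^ Q.card :=
    Finset.exists_subset_card_eq (by rw [Finset.card_univ]; exact hcount)
  have hhW : 0 < hW h := by unfold hW; positivity
  have htne : t.Nonempty := by
    rw [← Finset.card_pos, htcard]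
    positivity
  -- the coefficient ring
  let S : Finset ℕ := D.primeFactors
  have hS : ∀ q : ℕ, q.Prime → (q ∈ S ↔ q ∣ D) := fun q hq => by
    rw [Nat.mem_primeFactors]
    exact ⟨fun h => h.2.1, fun h => ⟨hq, h, hD0⟩⟩
  obtain ⟨O, i1, i2, i3, i4, i5, i6, R, f, hf, hfm, ⟨w, hw⟩, hR⟩ :=
    exists_common (↑S : Set ℕ) hfin hA
  have h2O : (2 : O) ∈ maximalIdeal O := by
    have h1 := hfm 2 (by exact_mod_cast hA)
    rwa [map_ofNat] at h1
  have h2O' : ((2 : ℕ) : O) ∈ maximalIdeal O := by exact_mod_cast h2O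
  letI alg : Algebra ℤ_[2] O := (padicHom h2O').toAlgebra
  haveI : IsLocalHom (algebraMap ℤ_[2] O) := by
    refine ⟨fun x hx => ?_⟩
    by_contra hxn
    have h1 : x ∈ maximalIdeal ℤ_[2] := (mem_maximalIdeal x).mpr hxn
    rw [PadicInt.maximalIdeal_eq_span_p, Ideal.mem_span_singleton] at h1
    obtain ⟨y, rfl⟩ := h1
    rw [map_mul, map_natCast] at hx
    exact (mem_maximalIdeal _).mp (Ideal.mul_mem_right _ _ h2O') hx
  -- the components
  have hC : ∀ g : t, ∃ C : Comp Y.toDat (fun σ => cyc h2O' σ) O,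
      FFrob (nfPi g.1.2.1.1 (↑S : Set ℕ) (hR g.1) f) C.ρ := by
    intro g
    refine exists_comp_nf h hY h2O f hf hfm hS g.1 (hR g.1) ?_
    intro ρ hcont hfrob hdet hres hYσ
    have h2bad : p2 ∈ bad W := (mem_bad hΔ).mpr h.two
    have h2Q : p2 ∉ Y.Q := by
      intro h2
      rw [hY.hQ] at h2
      exact hY.good p2 h2 h.two
    have h2Sg : p2 ∈ Y.Sg := by
      rw [hY.Sg]
      exact Finset.mem_union_left _ h2bad
    exact hL2 ((two_dvd_NW h).trans (NW_dvd_lvl W Q)) (lvl_squarefree hΔ hY.good) g.1.2.1 hS h2O f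
      hf (hR g.1) ρ hcont hfrob hdet Y.ρ0 hres ⟨Y.σ, Y.hσ, hYσ⟩ ⟨Y.τ, Y.hτ⟩ (Y.hA p2)
      ⟨Y.gI p2, Y.gI_mem p2 h2Sg h2Q, Y.gI_ne p2 h2Sg h2Q⟩ (Y.hφ p2)
  choose C hCfrob using hC
  -- the ring `P`
  let P : Type := O ⧸ Ideal.span {(2 : O) ^ m}
  have hI : Ideal.span {(2 : O) ^ m} ≠ ⊤ := by
    intro h0
    rw [Ideal.span_singleton_eq_top] at h0
    exact (mem_maximalIdeal _).mp (Ideal.pow_mem_of_mem _ h2O m (Nat.pos_of_ne_zero hm)) h0
  haveI : Nontrivial P := Ideal.Quotient.nontrivial_iff.mpr hI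
  haveI : IsLocalRing P := IsLocalRing.of_surjective' (Ideal.Quotient.mk _)
    Ideal.Quotient.mk_surjective
  haveI : IsLocalHom (algebraMap O P) := by
    refine ⟨fun x hx => ?_⟩
    by_contra hxn
    have h1 : x ∈ maximalIdeal O := (mem_maximalIdeal x).mpr hxn
    obtain ⟨y, hy⟩ := hx.exists_right_inv
    obtain ⟨y, rfl⟩ := Ideal.Quotient.mk_surjective y
    have h2 : x * y - 1 ∈ Ideal.span {(2 : O) ^ m} := by
      rw [← Ideal.Quotient.eq_zero_iff_mem, map_sub, map_mul, map_one, sub_eq_zero]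
      exact hy
    have h3 : x * y - 1 ∈ maximalIdeal O := le_maximalIdeal hI h2
    have h4 : (1 : O) ∈ maximalIdeal O := by
      have h5 := Ideal.sub_mem _ (Ideal.mul_mem_right y _ h1) h3
      rwa [sub_sub_cancel] at h5
    exact (mem_maximalIdeal _).mp h4 isUnit_one
  obtain ⟨C', hC', -⟩ := exists_zComp h hY (O := O) (P := P) (by
    exact Ideal.Quotient.eq_zero_iff_mem.mpr (Ideal.mem_span_singleton_self _))
  -- the contradiction
  have key : ∃ i : t, ∀ σ : GQ, (2 : O) ^ s ∣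
      algebraMap ℤ_[2] O (LinearMap.trace ℤ_[2] _ (rr (WQ W) 2 σ)) - ((C i).ρ σ).trace := by
    by_contra hcon
    push Not at hcon
    choose γ hγ using hcon
    let p : MvPolynomial (GQ ⊕ Y.toDat.Q) O := ∏ i : t,
      (MvPolynomial.X (Sum.inl (γ i)) - MvPolynomial.C ((C i).ρ (γ i)).trace)
    have hp : ∀ i, MvPolynomial.aeval (C i).val p = 0 := by
      intro i
      rw [map_prod]
      refine Finset.prod_eq_zero (Finset.mem_univ i) ?_
      rw [map_sub, MvPolynomial.aeval_X, MvPolynomial.aeval_C, Algebra.algebraMap_self]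
      exact sub_self _
    have hdist : ∀ i j : t, i ≠ j → ∃ x, (C i).val x ≠ (C j).val x := by
      intro i j hij
      by_contra hall
      push Not at hall
      apply hij
      apply Subtype.ext
      apply Subtype.ext
      have hsys : ∀ (ℓ : ℕ), ℓ.Prime → ¬ ℓ ∣ D → qCoeff i.1.1 ℓ = qCoeff j.1.1 ℓ := by
        intro ℓ hℓ hℓD
        have hℓS : ℓ ∉ (↑S : Set ℕ) := fun hh => hℓD ((hS ℓ hℓ).mp (Finset.mem_coe.mp hh))
        obtain ⟨A', hA'⟩ := Fermat.Agent.H05.exists_liesOverPrime Qb hℓ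
        obtain ⟨φ, hφ⟩ := Fermat.Agent.H05.exists_isFrobeniusAt hℓ hA'
        have h1 := hall (Sum.inl φ)
        change ((C i).ρ φ).trace = ((C j).ρ φ).trace at h1
        rw [(hCfrob i ℓ hℓ hℓD hℓS A' hA' φ hφ).1, (hCfrob j ℓ hℓ hℓD hℓS A' hA' φ hφ).1] at h1
        have h2 := congrArg (Subtype.val (p := (· ∈ R))) (hf h1)
        rwa [← H23.coe_eigenChar_T i.1.2.1.1 hℓ hℓD hℓS, ← H23.coe_eigenChar_T j.1.2.1.1 hℓ hℓD hℓS]
      obtain ⟨-, h5⟩ := AL.newform_unique i.1.2.1 j.1.2.1 hD0 (fun ℓ hℓ _ _ hℓD =>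
        hsys ℓ hℓ hℓD)
      exact DFunLike.coe_injective h5
    have hcardQ : Y.toDat.Q.card = Q.card := by
      change (Y.Q.subtype (· ∈ Y.Sg)).card = _
      rw [Finset.card_subtype, Finset.filter_true_of_mem (fun x hx => Y.hQ hx), hY.hQ]
    have hcardι : hW h * 2 ^ Y.toDat.Q.card ≤ Fintype.card t := by
      rw [hcardQ, Fintype.card_coe, htcard]
    have hχσ : cyc h2O' Y.toDat.σ = 1 := by
      refine cyc_inertia h2O' Y.v0.2 hY.v0_ne (Y.hA Y.v0) Y.σ_mem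
    have hmain := Z34.main (X := Y.toDat) (χ := fun σ => cyc h2O' σ) (P := P) h2O hχσ
      (fun σ => cyc_sub_one_mem h2O σ) w (by rw [hw]; exact Ideal.zero_mem _)
      (hSel Y b hY) (cft_W h hY) C hdist hcardι C' p hp
    have hval : MvPolynomial.aeval C'.val p = Ideal.Quotient.mk (Ideal.span {(2 : O) ^ m})
        (∏ i : t, (algebraMap ℤ_[2] O (LinearMap.trace ℤ_[2] _ (rr (WQ W) 2 (γ i))) -
          ((C i).ρ (γ i)).trace)) := by
      rw [map_prod, map_prod]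
      refine Finset.prod_congr rfl fun i _ => ?_
      rw [map_sub, MvPolynomial.aeval_X, MvPolynomial.aeval_C, map_sub]
      congr 1
      change (C'.ρ (γ i)).trace = _
      rw [hC', trace_rhoP]
      rfl
    have hmain2 := hval.symm.trans hmain
    rw [Ideal.Quotient.eq_zero_iff_mem, Ideal.mem_span_singleton] at hmain2
    have hms' : (Finset.univ : Finset t).card * s ≤ m := by
      rw [Finset.card_univ, Fintype.card_coe, htcard]
      refine le_trans ?_ hms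
      gcongr
      norm_num
    have hne' : (Finset.univ : Finset t).Nonempty := by
      obtain ⟨x, hx⟩ := htne
      exact ⟨⟨x, hx⟩, Finset.mem_univ _⟩
    obtain ⟨i, -, hi⟩ := pigeonhole (a := (2 : O)) Finset.univ _ (s := s) (m := m) hms' hne' hmain2
    exact hγ i hi
  obtain ⟨i, hi⟩ := key
  refine ⟨i.1.1, i.1.2.1, O, i1, i2, i3, i4, i5, i6, R, f, hf, h2O, ?_⟩
  intro ℓ hℓ hℓD
  have hℓS : ℓ ∉ (↑S : Set ℕ) := fun hh => hℓD ((hS ℓ hℓ).mp (Finset.mem_coe.mp hh))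
  refine ⟨⟨_, hR i.1 (CuspForm.heckeAlgebra.T hℓ hℓD hℓS)⟩,
    H23.coe_eigenChar_T i.1.2.1.1 hℓ hℓD hℓS, ?_⟩
  obtain ⟨A', hA'⟩ := Fermat.Agent.H05.exists_liesOverPrime Qb hℓ
  obtain ⟨φ, hφ⟩ := Fermat.Agent.H05.exists_isFrobeniusAt hℓ hA'
  have hgood : W.IsGoodPrimeFor ℓ := fun h' => hℓD ((dvd_lvl_iff hΔ hℓ).mpr (Or.inl h'))
  have h1 := hi φ
  rw [trace_rr_frob h hℓ hgood hA' hφ, (hCfrob i ℓ hℓ hℓD hℓS A' hA' φ hφ).1, map_intCast] at h1
  rw [← dvd_neg, neg_sub]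
  exact h1

end Fermat.Agent.ZF
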