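import Mathlib
import Fermat.Agent.ZF.Asm
import Fermat.Agent.H07.Z2.Main

/-!
# PROGRAM Z: newforms congruent to `W` modulo arbitrarily high powers of `2`
-/

set_option autoImplicit false

namespace Fermat.Agent.ZF

open IsLocalRing CongruenceSubgroup ModularFormClass
open Fermat.Agent.Ell Fermat.Agent.Z34 Fermat.Agent.CC
open Fermat.Agent.AL (NF nfSys)
open Fermat.Agent.TC (Pr)
open Fermat.Agent.H24H (LamA)

/-- **the counting theorem** -/
def CountZ : Prop := ∀ {W : WeierstrassCurve ℤ} (h : ZCurve W) {Q : Finset Nat.Primes},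
  Q.Nonempty → (∀ q ∈ Q, CTy W 3 q) → ∀ {A : ValuationSubring ℂ}, (2 : ℂ) ∈ A.nonunits →
    hW h * 2 ^ Q.card ≤ Nat.card (NF (lvl W Q) (lvl W Q) (LamA A (aW W A (lvl W Q))))

theorem CTy_mono {W : WeierstrassCurve ℤ} {m m' q : ℕ} (hm : m' ≤ m) (h : CTy W m q) :
    CTy W m' q := by
  obtain ⟨h1, A, hA, φ, hφ, c, hc, hc2, h2⟩ := h
  refine ⟨h1, A, hA, φ, hφ, c, hc, hc2, fun P hP => h2 P ?_⟩
  obtain ⟨k, rfl⟩ := Nat.exists_eq_add_of_le hm
  rw [pow_add, mul_comm, mul_smul, hP, nsmul_zero]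

/-- existence of a place above `2` -/
theorem exists_place_two : ∃ A : ValuationSubring ℂ, (2 : ℂ) ∈ A.nonunits := by
  obtain ⟨A, hA⟩ := Fermat.Agent.H05.exists_liesOverPrime ℂ Nat.prime_two
  exact ⟨A, by exact_mod_cast hA⟩

/-- **newforms congruent to `W`** modulo arbitrarily high powers of `2`, of bounded complexity -/
theorem exists_congNF (hL2 : Line2) (hCZ : CountZ) {W : WeierstrassCurve ℤ} (h : ZCurve W) :
    ∃ B : ℕ, ∀ s : ℕ, ∃ m : ℕ, s ≤ m ∧ ∃ Q : Finset Nat.Primes, Q.card ≤ B ∧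
      (∀ q ∈ Q, CTy W m q) ∧ CongNF W Q s := by
  obtain ⟨B, hB⟩ := H07.Z2.exists_Q h
  obtain ⟨A, hA⟩ := exists_place_two
  have hhW : 0 < hW h := by unfold hW; positivity
  refine ⟨B, fun s => ?_⟩
  have h1 : 1 ≤ hW h * 2 ^ B := Nat.one_le_iff_ne_zero.mpr (by positivity)
  have h2 : s + 3 ≤ hW h * 2 ^ B * (s + 3) := Nat.le_mul_of_pos_left _ h1
  obtain ⟨Q, hQne, hQB, hQ, hSel⟩ := hB (hW h * 2 ^ B * (s + 3)) (by omega)
  refine ⟨hW h * 2 ^ B * (s + 3), by omega, Q, hQB, hQ, ?_⟩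
  refine congNF_of hL2 h hA hQB hQ (by omega) ?_ hSel ?_
  · exact Nat.mul_le_mul_left _ (by omega)
  · exact hCZ h hQne (fun q hq => CTy_mono (by omega) (hQ q hq)) hA

end Fermat.Agent.ZF
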