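import Mathlib
import Fermat.Agent.ZF.Asm
import Fermat.Agent.H27.NFLine2

/-!
# PROGRAM Z: the line at `2`
-/

set_option autoImplicit false

namespace Fermat.Agent.ZF

open Fermat.Agent.Ell Fermat.Agent.Z34 Fermat.Agent.CC

theorem line2 : Line2 := by
  intro N _ h2N hsq g hg S hS O _ _ _ _ _ _ h2O R f hf hR ρ hcont hfrob _ ρ0 hres hσ hτ A hA hI φ hφ
  refine isLine_two h2N ?_ hg ((hS 2 Nat.prime_two).mpr h2N) (fun q hq hqN => (hS q hq).mpr hqN)
    h2O f hf hR ρ hcont hfrob ρ0 hres hσ hτ hA hI hφ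
  intro h
  rw [pow_two] at h
  exact absurd (Nat.isUnit_iff.mp (hsq _ h)) (by norm_num)

end Fermat.Agent.ZF
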