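import Mathlib
import Fermat.Agent.ZF.Match
import Fermat.Agent.ZF.Lvl
import Fermat.Agent.Ell.ZComp
import Fermat.Agent.ZC.PlaceSpl
import Fermat.Agent.H29W.BSet

/-!
# The auxiliary primes of PROGRAM Z
-/

set_option autoImplicit false
set_option linter.unusedSectionVars false

namespace Fermat.Agent.ZF

open IsLocalRing
open Fermat.Agent.Ell Fermat.Agent.Z34 Fermat.Agent.CC
open Matrix

variable {W : WeierstrassCurve ℤ}

/-- complex conjugation has determinant `-1` -/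
theorem det_conj (hΔ : W.Δ ≠ 0) {c : GQ} (hc : c * c = 1)
    (hmov : ∃ P : Pts (WQ W), 2 • P = 0 ∧ c • P ≠ P) :
    LinearMap.det (rr (WQ W) 2 c) = -1 := by
  have hell := isElliptic_WQ hΔ
  let b := tateBasis (WQ W) 2
  obtain ⟨v, hv, hcv, hspan⟩ := exists_conj_basis hell hc hmov
  have hu := crd_unit (f := RingHom.id ℤ_[2]) (b := b) hell hv
  obtain ⟨w, hw⟩ := exists_cr_eq_one hu
  obtain ⟨k, hk⟩ := line_of (f := RingHom.id ℤ_[2]) (b := b) hspan w
  have hv2 : rhoP (RingHom.id ℤ_[2]) b c *ᵥ crd (RingHom.id ℤ_[2]) b v =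
      -crd (RingHom.id ℤ_[2]) b v := by
    have h1 : mtx b (rr (WQ W) 2 c) *ᵥ b.repr v = b.repr (rr (WQ W) 2 c v) :=
      LinearMap.toMatrix_mulVec_repr b b _ _
    rw [hcv] at h1
    funext i
    have h2 := congrFun h1 i
    simpa [crd, rhoP] using h2
  have h1 := cr_mulVec (rhoP (RingHom.id ℤ_[2]) b c) (crd (RingHom.id ℤ_[2]) b v) w
  rw [RingHom.id_apply, one_smul, sub_eq_iff_eq_add] at hk
  rw [hv2, hk, hw, mul_one, det_rhoP, RingHom.id_apply] at h1
  rw [← h1]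
  have h3 : cr (-crd (RingHom.id ℤ_[2]) b v) (k • crd (RingHom.id ℤ_[2]) b v + w) =
      - cr (crd (RingHom.id ℤ_[2]) b v) w := by
    simp only [cr, Pi.neg_apply, Pi.add_apply, Pi.smul_apply, smul_eq_mul]
    ring
  rw [h3, hw]

/-- the auxiliary primes are `-1` modulo `2 ^ m` -/
theorem dvd_add_one (h : ZCurve W) {m q : ℕ} (hq : q.Prime) (hc : CTy W m q) :
    2 ^ m ∣ q + 1 := by
  have hΔ := h.neg.ne
  have hell := isElliptic_WQ hΔ
  obtain ⟨hgood, A, hA, φ, hφ, c, hcc, hmov, hφc⟩ := hc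
  have hq2 : q ≠ 2 := by
    rintro rfl
    exact hgood h.two
  let b := tateBasis (WQ W) 2
  let f : ℤ_[2] →+* ZMod (2 ^ m) := PadicInt.toZModPow m
  have hf : f ((2 : ℤ_[2]) ^ m) = 0 := by
    rw [map_pow, map_ofNat]
    exact_mod_cast ZMod.natCast_self (2 ^ m)
  have h1 : rhoP f b φ = rhoP f b c := rhoP_congr hf hφc
  have h2 := congrArg Matrix.det h1
  rw [det_rhoP, det_rhoP, det_conj hΔ hcc hmov, det_rr_eq hΔ h.irr, ← det_rr_eq hΔ h.irr] at h2
  have hdet : LinearMap.det (rr (WQ W) 2 φ) = (q : ℤ_[2]) :=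
    det_frob (isModel_WQ W) (exists_nonscalar_of_irr (p := 2) hΔ h.irr) hq hq2 hA hφ
  rw [hdet, map_natCast, map_neg, map_one] at h2
  have h3 : ((q + 1 : ℕ) : ZMod (2 ^ m)) = 0 := by
    push_cast
    rw [h2]
    ring
  exact (ZMod.natCast_eq_zero_iff _ _).mp h3

lemma conj_aux (a b c d : ZMod 2) (h1 : a * d - b * c = 1) (h2 : a * a + b * c = 1)
    (h5 : c * b + d * d = 1) (h6 : a + d = 1) : False := by
  have h0 : (2 : ZMod 2) = 0 := rfl
  have ha : a = 0 := by linear_combination h2 + h1 - a * h6 + h0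
  have hd : d = 0 := by linear_combination h5 + h1 - d * h6 + h0
  rw [ha, hd] at h6
  exact absurd h6 (by decide)

lemma aux_trace {M : M2 (ZMod 2)} (hd : M.det = 1) (hM : M * M = 1) : M.trace ≠ 1 := by
  intro ht
  have h00 := congrFun (congrFun hM 0) 0
  have h11 := congrFun (congrFun hM 1) 1
  rw [Matrix.mul_apply, Fin.sum_univ_two] at h00 h11
  rw [Matrix.det_fin_two] at hd
  rw [Matrix.trace_fin_two] at ht
  exact conj_aux _ _ _ _ hd h00 h11 ht

/-- Frobenius at an auxiliary prime acts as a transposition -/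
theorem frob_delta (h : ZCurve W) {m q : ℕ} (hm : m ≠ 0) (hc : CTy W m q) :
    ∃ (A : ValuationSubring Qb) (φ : GQ), A.LiesOverPrime q ∧ A.IsFrobeniusAt φ q ∧
      φ (delta h) = - delta h := by
  have hΔ := h.neg.ne
  have hell := isElliptic_WQ hΔ
  obtain ⟨hgood, A, hA, φ, hφ, c, hcc, ⟨P, hP, hcP⟩, hφc⟩ := hc
  refine ⟨A, φ, hA, hφ, (delta_pm h φ).resolve_left fun hfix => ?_⟩
  let b := tateBasis (WQ W) 2
  have hφ2 : ∀ P : Pts (WQ W), 2 • P = 0 → φ • P = c • P := by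
    intro P hP
    apply hφc
    obtain ⟨k, rfl⟩ := Nat.exists_eq_succ_of_ne_zero hm
    rw [pow_succ, mul_smul, hP, nsmul_zero]
  rcases (delta_iff h b φ).mp hfix with h1 | h1
  · exact rho0_ne_one b hP (by rw [hφ2 P hP]; exact hcP) h1
  · refine aux_trace (det_rho0 (rho0 b) φ) ?_ h1
    rw [← map_mul, rho0_eq_one_iff]
    intro R hR
    rw [mul_smul, hφ2 R hR]
    have hcR : 2 • (c • R) = 0 := by
      have e1 : c • R + c • R = c • (R + R) := (smul_add c R R).symm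
      have e2 : R + R = 0 := by rw [← two_nsmul]; exact hR
      have e3 : c • (0 : Pts (WQ W)) = 0 := by
        have e4 : c • ((0 : Pts (WQ W)) + 0) = c • (0 : Pts (WQ W)) + c • (0 : Pts (WQ W)) :=
          smul_add c (0 : Pts (WQ W)) 0
        rw [add_zero] at e4
        exact (left_eq_add.mp e4)
      rw [two_nsmul, e1, e2, e3]
    rw [hφ2 _ hcR, ← mul_smul, hcc, one_smul]

/-- the auxiliary primes are inert -/
theorem inert (h : ZCurve W) {m q : ℕ} (hm : m ≠ 0) (hq : q.Prime) (hc : CTy W m q)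
    (r : ZMod q) : r ^ 2 ≠ ((-2 * (MW W : ℤ) : ℤ) : ZMod q) := by
  intro hr
  have hΔ := h.neg.ne
  obtain ⟨A, φ, hA, hφ, hδ⟩ := frob_delta h hm hc
  have hq2 : q ≠ 2 := by
    rintro rfl
    exact hc.1 h.two
  have : Fact q.Prime := ⟨hq⟩
  have hqd : ¬ (q : ℤ) ∣ -2 * (MW W : ℤ) := by
    intro hh
    have e : (-2 * (MW W : ℤ)) = -((NW W : ℕ) : ℤ) := by
      rw [← two_mul_MW h]; push_cast; ring
    rw [e, dvd_neg, Int.natCast_dvd_natCast, dvd_NW_iff hΔ hq] at hh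
    exact hc.1 hh
  have hd0 : ((-2 * (MW W : ℤ) : ℤ) : ZMod q) ≠ 0 := by
    rw [Ne, ZMod.intCast_zmod_eq_zero_iff_dvd]
    exact hqd
  have hr0 : r ≠ 0 := by
    rintro rfl
    rw [zero_pow two_ne_zero] at hr
    exact hd0 hr.symm
  obtain ⟨k, hk⟩ := hq.odd_of_ne_two hq2
  -- Fermat
  have h1 : (q : ℤ) ∣ (-2 * (MW W : ℤ)) ^ k - 1 := by
    rw [← ZMod.intCast_zmod_eq_zero_iff_dvd]
    push_cast
    have h2 : ((-2 * (MW W : ℤ) : ℤ) : ZMod q) ^ k = 1 := by
      rw [← hr, ← pow_mul, show 2 * k = q - 1 by omega]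
      exact ZMod.pow_card_sub_one_eq_one hr0
    push_cast at h2
    rw [h2, sub_self]
  obtain ⟨t, ht⟩ := h1
  have hδi : IsIntegral ℤ (delta h) := by
    refine ⟨Polynomial.X ^ 2 - Polynomial.C (-2 * (MW W : ℤ)), Polynomial.monic_X_pow_sub_C _
      two_ne_zero, ?_⟩
    rw [Polynomial.eval₂_sub, Polynomial.eval₂_pow, Polynomial.eval₂_X, Polynomial.eval₂_C,
      delta_sq]
    simp
  have hδA : delta h ∈ A := H05.mem_of_isIntegral A hδi
  have h2 := ZC.frob_sub hφ (delta h) hδA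
  have h3 : delta h ^ q - delta h ∈ A.nonunits := by
    have e : delta h ^ q - delta h = (q : Qb) * ((t : Qb) * delta h) := by
      have e1 : delta h ^ q = delta h * (((-2 * (MW W : ℤ)) ^ k : ℤ) : Qb) := by
        rw [hk, pow_succ, pow_mul, delta_sq, mul_comm]
        push_cast
        ring
      have e2 : (((-2 * (MW W : ℤ)) ^ k : ℤ) : Qb) = 1 + (q : Qb) * (t : Qb) := by
        have e3 : (-2 * (MW W : ℤ)) ^ k = 1 + (q : ℤ) * t := by linarith
        rw [e3]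
        push_cast
        ring
      rw [e1, e2]
      ring
    rw [e]
    have hqA : (q : Qb) ∈ A.nonunits := hA
    rw [ValuationSubring.mem_nonunits_iff] at hqA ⊢
    rw [map_mul]
    refine lt_of_le_of_lt (mul_le_of_le_one_right' ?_) hqA
    rw [ValuationSubring.valuation_le_one_iff]
    exact A.mul_mem _ _ (H05.mem_of_isIntegral A (isIntegral_algebraMap (R := ℤ) (x := t))) hδA
  have h4 : (-2 : Qb) * delta h ∈ A.nonunits := by
    have e : (-2 : Qb) * delta h = (φ (delta h) - delta h ^ q) + (delta h ^ q - delta h) := by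
      rw [hδ]; ring
    rw [e]
    exact A.nonunits.add_mem h2 h3
  have h5 : (((-2) ^ 2 * (-2 * (MW W : ℤ)) : ℤ) : Qb) ∈ A.nonunits := by
    have e : (((-2) ^ 2 * (-2 * (MW W : ℤ)) : ℤ) : Qb) = ((-2 : Qb) * delta h) * ((-2 : Qb) * delta h) := by
      have := delta_sq h
      push_cast at this ⊢
      linear_combination (-4 : Qb) * this
    rw [e]
    exact A.nonunits.mul_mem h4 h4
  refine H05.natCast_not_mem_nonunits hq hA (c := (-2) ^ 2 * (-2 * (MW W : ℤ))) ?_ h5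
  intro hh
  have hp := Nat.prime_iff_prime_int.mp hq
  rcases hp.dvd_or_dvd hh with h6 | h6
  · have h7 := hp.dvd_of_dvd_pow h6
    rw [dvd_neg] at h7
    exact hq2 ((Nat.prime_dvd_prime_iff_eq hq Nat.prime_two).mp (by exact_mod_cast h7))
  · exact hqd h6

section QN

open Fermat.Agent.H29Z

variable {Q : Finset Nat.Primes}

theorem pb_QN (Q : Finset Nat.Primes) : PB (QN Q) := ⟨fun _ hq => prime_of_mem_QN hq⟩

theorem ib_QN (h : ZCurve W) (hQ : ∀ q ∈ Q, CTy W 3 q) : IB (-2 * (MW W : ℤ)) (QN Q) := by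
  refine ⟨fun q hq r => ?_⟩
  obtain ⟨q', hq', rfl⟩ := mem_QN.mp hq
  exact inert h three_ne_zero q'.2 (hQ q' hq') r

theorem four_dvd_QN (h : ZCurve W) (hQ : ∀ q ∈ Q, CTy W 3 q) (q : ℕ) (hq : q ∈ QN Q) :
    4 ∣ q + 1 := by
  obtain ⟨q', hq', rfl⟩ := mem_QN.mp hq
  exact (show 4 ∣ 2 ^ 3 by norm_num).trans (dvd_add_one h q'.2 (hQ q' hq'))

theorem coprime_QN (h : ZCurve W) (hQ : ∀ q ∈ Q, CTy W 3 q) :
    (fB (QN Q)).Coprime (8 * MW W) := by
  rw [fB_eq, Nat.coprime_prod_left_iff]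
  intro q hq
  obtain ⟨q', hq', rfl⟩ := mem_QN.mp hq
  have hgood := (hQ q' hq').1
  rw [Nat.Prime.coprime_iff_not_dvd q'.2]
  intro hdvd
  have h1 : (q' : ℕ) ∣ 4 * NW W := by
    rw [← two_mul_MW h, ← mul_assoc]
    exact hdvd
  rcases (Nat.Prime.dvd_mul q'.2).mp h1 with h2 | h2
  · have h3 : (q' : ℕ) ∣ 2 := q'.2.dvd_of_dvd_pow (show (q' : ℕ) ∣ 2 ^ 2 by norm_num; exact h2)
    have h4 := (Nat.prime_dvd_prime_iff_eq q'.2 Nat.prime_two).mp h3
    apply hgood
    rw [h4]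
    exact h.two
  · exact hgood ((dvd_NW_iff h.neg.ne q'.2).mp h2)

end QN

end Fermat.Agent.ZF
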