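import Mathlib
import Fermat.Agent.ZF.Cong
import Fermat.Agent.ZF.Line2
import Fermat.Agent.ZF.QPrime
import Fermat.Agent.Ell.Z7
import Fermat.Agent.H09.Z6E

/-!
# PROGRAM Z: the curves of PROGRAM Z are modular
-/

set_option autoImplicit false

namespace Fermat.Agent.ZF

open IsLocalRing CongruenceSubgroup ModularFormClass ModularCurve
open Fermat.Agent.Ell Fermat.Agent.Z34 Fermat.Agent.CC
open Fermat.Agent.AL (NF nfSys)
open Fermat.Agent.TC (Pr)
open Fermat.Agent.H24H (LamA)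

variable {W : WeierstrassCurve ℤ}

theorem congF_of_congNF {Q : Finset Nat.Primes} {s : ℕ} (h : CongNF W Q s) :
    H09.Z6.CongF W (lvl W Q) s := by
  obtain ⟨g, hg, O, i1, i2, i3, i4, i5, i6, R, f, hf, h2O, hc⟩ := h
  refine ⟨g, R, O, i1, i2, i3, i6, i5, f, hf, hg.ne_zero, h2O, fun l hl => ?_⟩
  obtain ⟨x, hx, hdvd⟩ := hc l l.2 hl
  refine ⟨x, ?_, hdvd⟩
  rw [CuspForm.heckeEvalForms_heckeGen_of_not_dvd hl, hx]
  exact AL.eigenform_T hg.1 l.2 hl

/-- **Theorem Z**, conditional on the counting theorem -/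
theorem thmZ_of (hCZ : CountZ) : ThmZ := by
  intro W h
  obtain ⟨B, hB⟩ := exists_congNF line2 hCZ h
  refine H09.Z6.modular_of_congF h B fun s => ?_
  obtain ⟨m, hm, Q, hQB, hQ, hc⟩ := hB s
  exact ⟨m, hm, Q, hQB, hQ, lvl W Q, inferInstance, lvl_eq W Q, congF_of_congNF hc⟩

end Fermat.Agent.ZF
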