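import Mathlib
import Fermat.Agent.ZF.Final
import Fermat.Agent.H28N.NewOdd
import Fermat.Agent.H28N.NewTwo
import Fermat.Agent.H28N.AuxP

/-!
# PROGRAM Z: Theorem Z, unconditionally
-/

set_option autoImplicit false

namespace Fermat.Agent.ZF

open IsLocalRing CongruenceSubgroup ModularFormClass ModularCurve
open Fermat.Agent.Ell Fermat.Agent.Z34 Fermat.Agent.CC Fermat.Agent.H29Z
open Fermat.Agent.AL (NF nfSys)
open Fermat.Agent.TC (Pr)
open Fermat.Agent.H24H (LamA)

theorem countZ : CountZ := by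
  intro W h Q hQne hQ A hA
  have hell := isElliptic_WQ h.neg.ne
  have h1 := pb_QN Q
  have h2 := ib_QN h hQ
  have hne : (QN Q).Nonempty := by
    obtain ⟨q, hq⟩ := hQne
    exact ⟨q, coe_mem_QN.mpr hq⟩
  have h3 := countZ_of h (tateBasis (WQ W) 2) hne (four_dvd_QN h hQ) (coprime_QN h hQ) hA
    (lvl_ne_zero W Q) dvd_rfl
    (fun T hT => H28N.exists_ell_one h _ (lvl_ne_zero W Q) (NW_dvd_lvl W Q) hT)
    (fun L hL hNL => H28N.card_NF_eq_zero h (lvl_ne_zero W Q) (NW_dvd_lvl W Q) hL hA hNL)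
  rw [card_QN] at h3
  exact h3

/-- **Theorem Z** -/
theorem thmZ : ThmZ := thmZ_of countZ

end Fermat.Agent.ZF
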